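import Fermat.Agent.Root.SummaryChebotarev

/-!
# Chebotarev's lower bound over a number field

For number fields `K ⊆ L ⊆ M`, with `L/K` and `M/ℚ` Galois, and a subset `C` of `Gal(L/K)` stable
under conjugation, the degree one primes of `K` all whose Frobenius elements in `Gal(L/K)` lie in
`C` are counted from below by the primes `q` with a Frobenius element of `M` in the preimage of `C`.
-/

set_option autoImplicit false
set_option linter.style.haveILetI false

noncomputable section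

open NumberField IsDedekindDomain Filter Topology FA.Density
open FA.Ext (zN zN_nonneg primeIdeal zN_primeIdeal)
open FA.Weight1 (hits)
open scoped Pointwise Classical

namespace FA.Chebotarev

local notation "Qb" => AlgebraicClosure ℚ
local notation "GQ" => AlgebraicClosure ℚ ≃ₐ[ℚ] AlgebraicClosure ℚ

theorem hits_mul_card_class {G : Type*} [Group G] [Fintype G] {τ g : G} (h : IsConj τ g) :
    hits τ g * Nat.card {x : G | IsConj τ x} = Fintype.card G := by
  set X : Set G := {x : G | IsConj τ x} with hXdef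
  have hconst : ∀ σ ∈ X, hits σ g = hits τ g := by
    intro σ hσ
    obtain ⟨z, hz⟩ := isConj_iff.mp (show IsConj τ σ from hσ)
    unfold FA.Weight1.hits
    refine Finset.card_bij' (fun y _ => z⁻¹ * y) (fun y _ => z * y) ?_ ?_ ?_ ?_
    · intro y hy
      rw [Finset.mem_filter] at hy ⊢
      refine ⟨Finset.mem_univ _, ?_⟩
      rw [show z⁻¹ * y * g * (z⁻¹ * y)⁻¹ = z⁻¹ * (y * g * y⁻¹) * z by group, hy.2, ← hz]
      group
    · intro y hy
      rw [Finset.mem_filter] at hy ⊢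
      refine ⟨Finset.mem_univ _, ?_⟩
      rw [show z * y * g * (z * y)⁻¹ = z * (y * g * y⁻¹) * z⁻¹ by group, hy.2, hz]
    · intro y _; exact mul_inv_cancel_left z y
    · intro y _; exact inv_mul_cancel_left z y
  have hsum := FA.Weight1.sum_hits (X := X)
    (fun y hy x => IsConj.trans hy (isConj_iff.mpr ⟨x, rfl⟩)) h
  rw [Finset.sum_congr rfl fun σ hσ => hconst σ (by simpa using hσ), Finset.sum_const,
    smul_eq_mul] at hsum
  rw [← hsum, Nat.card_coe_set_eq, mul_comm]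
  congr 1
  exact (Set.ncard_eq_toFinset_card' X).trans (by congr!)

/-- Over a number field, the primes all whose Frobenius elements lie in `C`. -/
def strictFrobSet (K L : Type*) [Field K] [NumberField K] [Field L] [NumberField L] [Algebra K L]
    [IsGalois K L] (C : Set (L ≃ₐ[K] L)) :
    Set (HeightOneSpectrum (𝓞 K)) :=
  {v | ∀ Q : Ideal (𝓞 L), Q.IsMaximal → Q.under (𝓞 K) = v.asIdeal →
    ∀ τ : L ≃ₐ[K] L, IsArithFrobAt (𝓞 K) τ Q → τ ∈ C}

variable {K L : Type*} [Field K] [NumberField K] [Field L] [NumberField L] [Algebra K L]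
variable {M : Type} [Field M] [NumberField M] [IsGalois ℚ M] [Algebra K M] [Algebra L M]
variable [IsScalarTower K L M]

omit [NumberField K] [NumberField L] [Algebra K L] [Algebra L M] [IsScalarTower K L M] in
/-- A residue field on which Frobenius at `q` is trivial has `q` elements. -/
theorem natCard_quotient_of_forall_pow {q : ℕ} (hq : q.Prime) {v : Ideal (𝓞 K)} (hv : v.IsMaximal)
    (hqv : (q : 𝓞 K) ∈ v) (h : ∀ y : 𝓞 K, y ^ q - y ∈ v) : Nat.card (𝓞 K ⧸ v) = q := by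
  have := Fact.mk hq
  let _ : Field (𝓞 K ⧸ v) := Ideal.Quotient.field v
  have : CharP (𝓞 K ⧸ v) q := (CharP.charP_iff_prime_eq_zero hq).mpr <| by
    rw [← map_natCast (Ideal.Quotient.mk v), Ideal.Quotient.eq_zero_iff_mem]
    exact hqv
  have hbot : ∀ a : 𝓞 K ⧸ v, a ∈ (⊥ : Subfield (𝓞 K ⧸ v)) := fun a => by
    obtain ⟨y, rfl⟩ := Ideal.Quotient.mk_surjective a
    exact (Subfield.mem_bot_iff_pow_eq_self (𝓞 K ⧸ v) q).mpr
      (by rw [← map_pow, Ideal.Quotient.eq]; exact h y)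
  refine (Nat.card_congr (Equiv.ofBijective (ZMod.castHom dvd_rfl (𝓞 K ⧸ v))
    ⟨(ZMod.castHom _ _).injective, fun a => ?_⟩)).symm.trans (Nat.card_zmod q)
  have := hbot a
  rwa [← ZMod.fieldRange_castHom_eq_bot q] at this

variable [IsGalois K L] [Algebra M Qb] [IsScalarTower ℚ M Qb]

include M in
/-- **The lower bound over a number field.** -/
theorem exists_strict_lower (C : Set (L ≃ₐ[K] L)) (hC : ∀ g ∈ C, ∀ x, x * g * x⁻¹ ∈ C) {δ : ℝ}
    (hδ : 0 < δ) :
    ∃ B : ℝ, ∀ᶠ s in 𝓝[>] (1 : ℝ), ((Nat.card C : ℝ) / Nat.card (L ≃ₐ[K] L) - δ) *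
      Real.log (1 / (s - 1)) - B ≤ (strictFrobSet K L C).primeIdealZetaSum s := by
  have : IsGalois K M := IsGalois.tower_top_of_isGalois ℚ K M
  -- the groups
  let ι : (M ≃ₐ[K] M) →* (M ≃ₐ[ℚ] M) :=
    { toFun := AlgEquiv.restrictScalars ℚ
      map_one' := rfl
      map_mul' := fun _ _ => rfl }
  have hι : Function.Injective ι := AlgEquiv.restrictScalars_injective ℚ
  let res : (M ≃ₐ[K] M) →* (L ≃ₐ[K] L) := AlgEquiv.restrictNormalHom L
  have hres : Function.Surjective res := AlgEquiv.restrictNormalHom_surjective (F := K) (K₁ := L) M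
  let X : Finset (M ≃ₐ[ℚ] M) := (Finset.univ.filter fun d => res d ∈ C).image ι
  set n : ℝ := (Fintype.card (M ≃ₐ[ℚ] M) : ℝ) with hn
  have hn0 : 0 < n := Nat.cast_pos.mpr Fintype.card_pos
  -- the densities of the classes
  let π : GQ →* (M ≃ₐ[ℚ] M) := AlgEquiv.restrictNormalHom M
  choose B hB using fun τ : M ≃ₐ[ℚ] M => exists_density_lower π
    (AlgEquiv.restrictNormalHom_surjective (F := ℚ) (K₁ := M) Qb) isOpen_ker_restrict
    (X := {x | IsConj τ x}) (fun y hy x => hy.trans (isConj_iff.mpr ⟨x, rfl⟩))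
    (div_pos hδ hn0)
  obtain ⟨mM, hmM0, hmM⟩ := exists_unramified M
  obtain ⟨mL, hmL0, hmL⟩ := exists_unramified L
  set bad : Finset ℕ := mM.divisors ∪ mL.divisors
  -- a Frobenius element above each good prime
  have hpair : ∀ q : ℕ, ∃ (P : Ideal (𝓞 M)) (g : M ≃ₐ[ℚ] M), q.Prime → q ∉ bad →
      IsFrobPair q P g ∧ ∃ A : ValuationSubring Qb, A.LiesOverPrime q ∧
        ∃ σ : GQ, A.IsFrobeniusAt σ q ∧ π σ = g := fun q => by
    by_cases hq : q.Prime ∧ q ∉ bad
    · obtain ⟨A, hA⟩ := FA.Deform.exists_liesOverPrime hq.1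
      obtain ⟨σ, hσ⟩ := FA.Deform.exists_isFrobeniusAt hq.1 hA
      obtain ⟨P, hP⟩ := exists_isFrobPair_restrict (F := M) hq.1 (fun P hP hqP =>
        hmM _ P hq.1 hP hqP fun hd => hq.2
          (Finset.mem_union_left _ (Nat.mem_divisors.mpr ⟨hd, hmM0⟩))) hA hσ
      exact ⟨P, _, fun _ _ => ⟨hP, A, hA, σ, hσ, rfl⟩⟩
    · exact ⟨⊥, 1, fun h1 h2 => absurd ⟨h1, h2⟩ hq⟩
  choose P g hPg using hpair
  set c : ℝ := (Nat.card C : ℝ) / Nat.card (L ≃ₐ[K] L) with hc
  set D : ℝ := (Nat.card (M ≃ₐ[K] M) : ℝ) with hD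
  have hD0 : 0 < D := Nat.cast_pos.mpr Nat.card_pos
  refine ⟨n * (∑ τ, |B τ| + X.card * bad.card) / D, ?_⟩
  filter_upwards [eventually_all.mpr hB, Ioc_one_two_mem] with s hT hs
  choose T hTX hTsum using hT
  set U := (Finset.univ.biUnion T).filter fun q => q.Prime ∧ q ∉ bad
  set E := U.sigma fun q => Finset.univ.filter fun x : M ≃ₐ[ℚ] M => x * g q * x⁻¹ ∈ X
  have hE : ∀ p ∈ E, p.1.Prime ∧ p.1 ∉ bad ∧ ∃ d, res d ∈ C ∧ ι d = p.2 * g p.1 * p.2⁻¹ := by
    rintro ⟨q, x⟩ hp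
    obtain ⟨hq, hx⟩ := Finset.mem_sigma.mp hp
    obtain ⟨d, hd, hde⟩ := Finset.mem_image.mp (Finset.mem_filter.mp hx).2
    exact ⟨(Finset.mem_filter.mp hq).2.1, (Finset.mem_filter.mp hq).2.2, d,
      (Finset.mem_filter.mp hd).2, hde⟩
  -- the prime of a pair
  let pr : (_ : ℕ) × (M ≃ₐ[ℚ] M) → Ideal (𝓞 K) := fun p => (p.2 • P p.1).under (𝓞 K)
  have hprime : ∀ p ∈ E, (pr p).IsMaximal ∧ Nat.card (𝓞 K ⧸ pr p) = p.1 := by
    intro p hp
    obtain ⟨hq, hbad, d, -, hd⟩ := hE p hp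
    have hP := (hPg p.1 hq hbad).1.conj p.2
    have := hP.isMaximal
    have hmax : (pr p).IsMaximal := Ideal.IsMaximal.under (𝓞 K) (p.2 • P p.1)
    refine ⟨hmax, natCard_quotient_of_forall_pow hq hmax (by
      rw [Ideal.mem_comap, map_natCast]; exact hP.mem) fun y => ?_⟩
    have h1 := neg_mem (hP.frob (algebraMap (𝓞 K) (𝓞 M) y))
    rw [← hd, neg_sub, show ι d • algebraMap (𝓞 K) (𝓞 M) y = algebraMap (𝓞 K) (𝓞 M) y from
      smul_algebraMap d y, ← map_pow, ← map_sub] at h1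
    exact h1
  have hv : ∀ p ∈ E, ∃ v : HeightOneSpectrum (𝓞 K), v.asIdeal = pr p := fun p hp =>
    ⟨⟨pr p, (hprime p hp).1.isPrime,
      Ring.ne_bot_of_isMaximal_of_not_isField (hprime p hp).1 (RingOfIntegers.not_isField _)⟩, rfl⟩
  have : Nonempty (HeightOneSpectrum (𝓞 K)) := by
    obtain ⟨I, hI⟩ := Ideal.exists_maximal (𝓞 K)
    exact ⟨⟨I, hI.isPrime,
      Ring.ne_bot_of_isMaximal_of_not_isField hI (RingOfIntegers.not_isField _)⟩⟩
  choose! φ hφ using hv
  have hφN : ∀ p ∈ E, Ideal.absNorm (φ p).asIdeal = p.1 := fun p hp => by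
    rw [hφ p hp, Ideal.absNorm_apply, Submodule.cardQuot_apply]
    exact (hprime p hp).2
  have hmem : ∀ p ∈ E, φ p ∈ strictFrobSet K L C := by
    intro p hp Q' hQ' hQ'v τ' hτ'
    obtain ⟨hq, hbad, d, hdC, hd⟩ := hE p hp
    have hP := (hPg p.1 hq hbad).1.conj p.2
    have := hP.isMaximal
    have : (Ideal.under (𝓞 L) (p.2 • P p.1)).IsMaximal := Ideal.IsMaximal.under (𝓞 L) (p.2 • P p.1)
    have hQv : ((p.2 • P p.1).under (𝓞 L)).under (𝓞 K) = (φ p).asIdeal := by
      rw [hφ p hp, Ideal.under_under]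
    have hτ : IsArithFrobAt (𝓞 K) (res d) ((p.2 • P p.1).under (𝓞 L)) := fun y => by
      rw [hQv, hφ p hp, (hprime p hp).2, Ideal.mem_comap, map_sub, map_pow]
      convert hP.frob (algebraMap (𝓞 L) (𝓞 M) y) using 2
      rw [← hd]
      exact RingOfIntegers.ext (AlgEquiv.restrictNormal_commutes d L (y : L))
    obtain ⟨h, hh⟩ := Algebra.IsInvariant.exists_smul_of_under_eq (𝓞 K) (𝓞 L) (L ≃ₐ[K] L)
      ((p.2 • P p.1).under (𝓞 L)) Q' (hQv.trans hQ'v.symm)
    have h1 := IsArithFrobAt.mul_inv_mem_inertia (R := 𝓞 K) (hh ▸ hτ.conj h) hτ'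
    have hqQ' : (p.1 : 𝓞 L) ∈ Q' := by
      have : (p.1 : 𝓞 K) ∈ Q'.under (𝓞 K) := by
        rw [hQ'v, hφ p hp, Ideal.mem_comap, map_natCast]
        exact hP.mem
      rwa [Ideal.mem_comap, map_natCast] at this
    have h2 := hmL p.1 Q' hq hQ' hqQ'
      (fun hd => hbad (Finset.mem_union_right _ (Nat.mem_divisors.mpr ⟨hd, hmL0⟩)))
      ((h * res d * h⁻¹ * τ'⁻¹).restrictScalars ℚ) h1
    rw [← mul_inv_eq_one.mp (AlgEquiv.restrictScalars_injective ℚ (h2.trans rfl))]
    exact hC _ hdC h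
  have hfib : ∀ p₀ ∈ E, ((E.filter fun p => φ p = φ p₀).card : ℝ) ≤ D := by
    intro p₀ hp₀
    rw [hD, Nat.cast_le, Nat.card_eq_fintype_card, ← Finset.card_univ,
      ← Finset.card_image_of_injective Finset.univ hι]
    have hfst : ∀ p ∈ E.filter (fun p => φ p = φ p₀), p.1 = p₀.1 := fun p hp => by
      rw [← hφN p (Finset.mem_filter.mp hp).1, (Finset.mem_filter.mp hp).2, hφN p₀ hp₀]
    refine Finset.card_le_card_of_injOn (fun p => p.2 * p₀.2⁻¹) (fun p hp => ?_)
      fun p hp p' hp' hpp => Sigma.ext ((hfst p hp).trans (hfst p' hp').symm)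
        (heq_of_eq (mul_right_cancel hpp))
    obtain ⟨hq, hbad, d₀, -, hd₀⟩ := hE p₀ hp₀
    obtain ⟨hpE, hpφ⟩ := Finset.mem_filter.mp (Finset.mem_coe.mp hp)
    have hP := (hPg p₀.1 hq hbad).1
    have := (hP.conj p₀.2).isMaximal
    have := (hP.conj p.2).isMaximal
    obtain ⟨d, hd⟩ := Algebra.IsInvariant.exists_smul_of_under_eq (𝓞 K) (𝓞 M) (M ≃ₐ[K] M)
      (p₀.2 • P p₀.1) (p.2 • P p₀.1) (by
        have h := congrArg HeightOneSpectrum.asIdeal hpφ.symm
        rw [hφ p₀ hp₀, hφ p hpE] at h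
        simp only [pr, hfst p hp] at h
        exact h)
    have hz : p₀.2⁻¹ * (ι d)⁻¹ * p.2 ∈ Subgroup.zpowers (g p₀.1) := by
      refine hP.stabilizer_le (hP.absNorm_below (Subgroup.mem_zpowers _)) ?_
      rw [mul_smul, mul_smul, hd]
      show p₀.2⁻¹ • ((ι d)⁻¹ • (ι d • (p₀.2 • P p₀.1))) = P p₀.1
      rw [inv_smul_smul, inv_smul_smul]
    obtain ⟨k, hk⟩ := hz
    refine Finset.mem_coe.mpr (Finset.mem_image.mpr ⟨d * d₀ ^ k, Finset.mem_univ _, ?_⟩)
    rw [map_mul, map_zpow, hd₀, conj_zpow, show g p₀.1 ^ k = p₀.2⁻¹ * (ι d)⁻¹ * p.2 from hk]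
    group
  -- the count
  set S := (strictFrobSet K L C)
  have hV : ∑ v ∈ E.image φ, zN s (primeIdeal v) ≤ S.primeIdealZetaSum s := by
    have hsum : Summable fun v : S => zN s (primeIdeal v.1) :=
      (summable_zN_primeIdeal hs.1).subtype S
    simp only [Set.primeIdealZetaSum_def, ← zN_primeIdeal]
    refine le_trans (le_of_eq ?_) (hsum.sum_le_tsum ((E.image φ).subtype (· ∈ S))
      fun _ _ => zN_nonneg _ _)
    refine (Finset.sum_subtype_of_mem (fun v => zN s (primeIdeal v)) fun v hv => ?_).symm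
    obtain ⟨p, hp, rfl⟩ := Finset.mem_image.mp hv
    exact hmem p hp
  have hE1 : ∑ p ∈ E, (p.1 : ℝ) ^ (-s) ≤ D * S.primeIdealZetaSum s := by
    rw [Finset.sum_congr rfl (g := fun p => zN s (primeIdeal (φ p))) fun p hp => by
      rw [zN_primeIdeal, hφN p hp], Finset.sum_comp (fun v => zN s (primeIdeal v)) φ]
    refine le_trans ?_ (mul_le_mul_of_nonneg_left hV hD0.le)
    rw [Finset.mul_sum]
    refine Finset.sum_le_sum fun v hv => ?_
    obtain ⟨p, hp, rfl⟩ := Finset.mem_image.mp hv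
    rw [nsmul_eq_mul]
    exact mul_le_mul_of_nonneg_right (hfib p hp) (zN_nonneg _ _)
  have hE2 : ∑ p ∈ E, (p.1 : ℝ) ^ (-s) =
      ∑ τ ∈ X, ∑ q ∈ U, (hits τ (g q) : ℝ) * (q : ℝ) ^ (-s) := by
    rw [Finset.sum_sigma, Finset.sum_comm]
    refine Finset.sum_congr rfl fun q _ => ?_
    dsimp only
    rw [Finset.sum_const, nsmul_eq_mul, ← Finset.sum_mul, ← Nat.cast_sum]
    congr 2
    rw [Finset.card_eq_sum_card_fiberwise (s := Finset.univ.filter fun x => x * g q * x⁻¹ ∈ X)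
      (f := fun x => x * g q * x⁻¹) (t := X)
      fun x hx => (Finset.mem_filter.mp (Finset.mem_coe.mp hx)).2]
    refine Finset.sum_congr rfl fun τ hτ => congrArg Finset.card ?_
    ext x
    simp only [Finset.mem_filter, Finset.mem_univ, true_and]
    exact ⟨fun h => h.2, fun h => ⟨h ▸ hτ, h⟩⟩
  set L₀ := Real.log (1 / (s - 1))
  have hone : ∀ τ : M ≃ₐ[ℚ] M, (1 - δ) * L₀ - n * (|B τ| + bad.card) ≤
      ∑ q ∈ U, (hits τ (g q) : ℝ) * (q : ℝ) ^ (-s) := by
    intro τ
    set k : ℝ := (Nat.card {x : M ≃ₐ[ℚ] M | IsConj τ x} : ℝ) with hk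
    have hk1 : 1 ≤ k := by
      have : Nonempty {x : M ≃ₐ[ℚ] M | IsConj τ x} := ⟨⟨τ, IsConj.refl τ⟩⟩
      exact Nat.one_le_cast.mpr Nat.card_pos
    have hkn : k ≤ n := by
      rw [hk, hn, ← Nat.card_eq_fintype_card, Nat.cast_le]
      exact Nat.card_le_card_of_injective _ Subtype.val_injective
    have hx0 : ∀ q : ℕ, 0 ≤ (q : ℝ) ^ (-s) := fun q => Real.rpow_nonneg (Nat.cast_nonneg _) _
    have h1 : ∑ q ∈ T τ, (q : ℝ) ^ (-s) ≤
        ∑ q ∈ (T τ).filter (fun q => q ∉ bad), (q : ℝ) ^ (-s) + bad.card := by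
      rw [← Finset.sum_filter_add_sum_filter_not (T τ) (fun q => q ∉ bad)]
      refine add_le_add le_rfl ((Finset.sum_le_card_nsmul _ _ 1 fun q hq => ?_).trans ?_)
      · exact Real.rpow_le_one_of_one_le_of_nonpos
          (by exact_mod_cast (hTX τ q (Finset.mem_filter.mp hq).1).1.one_lt.le) (by linarith [hs.1])
      · rw [nsmul_eq_mul, mul_one]
        exact_mod_cast Finset.card_le_card fun q hq => not_not.mp (Finset.mem_filter.mp hq).2
    have h2 : (n / k) * ∑ q ∈ (T τ).filter (fun q => q ∉ bad), (q : ℝ) ^ (-s) ≤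
        ∑ q ∈ U, (hits τ (g q) : ℝ) * (q : ℝ) ^ (-s) := by
      rw [Finset.mul_sum]
      refine (Finset.sum_le_sum fun q hq => ?_).trans (Finset.sum_le_sum_of_subset_of_nonneg
        (fun q hq => ?_) fun q _ _ => mul_nonneg (Nat.cast_nonneg _) (hx0 q))
      · obtain ⟨hqT, hqb⟩ := Finset.mem_filter.mp hq
        obtain ⟨-, A, hA, σ, hσ, hσg⟩ := hPg q (hTX τ q hqT).1 hqb
        refine mul_le_mul_of_nonneg_right (le_of_eq ?_) (hx0 q)
        rw [div_eq_iff (by linarith), hk, hn, ← Nat.cast_mul, Nat.cast_inj]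
        exact (hits_mul_card_class (hσg ▸ (hTX τ q hqT).2 A hA σ hσ)).symm
      · exact Finset.mem_filter.mpr ⟨Finset.mem_biUnion.mpr
          ⟨τ, Finset.mem_univ _, (Finset.mem_filter.mp hq).1⟩,
          (hTX τ q (Finset.mem_filter.mp hq).1).1, (Finset.mem_filter.mp hq).2⟩
    refine le_trans ?_ h2
    have hL0 : 0 ≤ L₀ := Real.log_nonneg (by
      rw [le_div_iff₀ (by linarith [hs.1]), one_mul]; linarith [hs.2])
    have h3 := mul_le_mul_of_nonneg_left ((hTsum τ).trans h1)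
      (div_nonneg hn0.le (by linarith : 0 ≤ k))
    have h4 : n / k * ((k / n - δ / n) * L₀) = (1 - δ / k) * L₀ := by field_simp
    have h5 : n / k ≤ n := div_le_self hn0.le hk1
    have h6 : δ / k * L₀ ≤ δ * L₀ := mul_le_mul_of_nonneg_right (div_le_self hδ.le hk1) hL0
    rw [← hk, ← hn, mul_sub, h4, mul_add] at h3
    have h7 : n / k * B τ ≤ n * |B τ| := (mul_le_mul_of_nonneg_left (le_abs_self _)
      (div_nonneg hn0.le (by linarith))).trans (mul_le_mul_of_nonneg_right h5 (abs_nonneg _))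
    have h8 : n / k * (bad.card : ℝ) ≤ n * bad.card :=
      mul_le_mul_of_nonneg_right h5 (Nat.cast_nonneg _)
    linarith
  have hX : (X.card : ℝ) = c * D := by
    have hker : ∀ y : L ≃ₐ[K] L, (Finset.univ.filter fun d => res d = y).card =
        Nat.card res.ker := fun y => by
      obtain ⟨d₁, rfl⟩ := hres y
      rw [← Fintype.card_subtype, ← Nat.card_eq_fintype_card]
      exact Nat.card_congr
        { toFun := fun d => ⟨d₁⁻¹ * d.1, by
            rw [MonoidHom.mem_ker, map_mul, map_inv, d.2, inv_mul_cancel]⟩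
          invFun := fun d => ⟨d₁ * d.1, by rw [map_mul, MonoidHom.mem_ker.mp d.2, mul_one]⟩
          left_inv := fun d => Subtype.ext (mul_inv_cancel_left _ _)
          right_inv := fun d => Subtype.ext (inv_mul_cancel_left _ _) }
    have h1 : X.card = Nat.card C * Nat.card res.ker := by
      rw [Finset.card_image_of_injective _ hι, Finset.card_eq_sum_card_fiberwise (f := res)
        (t := C.toFinset) fun d hd => Set.mem_toFinset.mpr (Finset.mem_filter.mp hd).2,
        Finset.sum_congr rfl fun y hy => by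
          rw [Finset.filter_filter, Finset.filter_congr fun d _ =>
            (⟨fun h => h.2, fun h => ⟨h ▸ Set.mem_toFinset.mp hy, h⟩⟩ :
              res d ∈ C ∧ res d = y ↔ res d = y),
            hker y],
        Finset.sum_const, smul_eq_mul, Nat.card_coe_set_eq, Set.ncard_eq_toFinset_card']
    have h2 : Nat.card (M ≃ₐ[K] M) = Nat.card (L ≃ₐ[K] L) * Nat.card res.ker := by
      rw [Subgroup.card_eq_card_quotient_mul_card_subgroup res.ker,
        Nat.card_congr (QuotientGroup.quotientKerEquivOfSurjective res hres).toEquiv]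
    rw [hc, hD, h1, h2]
    push_cast
    field_simp
  have hsumX : (X.card : ℝ) * ((1 - δ) * L₀) - n * (∑ τ, |B τ| + X.card * bad.card) ≤
      ∑ τ ∈ X, ∑ q ∈ U, (hits τ (g q) : ℝ) * (q : ℝ) ^ (-s) := by
    refine le_trans ?_ (Finset.sum_le_sum fun τ _ => hone τ)
    rw [Finset.sum_sub_distrib, Finset.sum_const, nsmul_eq_mul, ← Finset.mul_sum,
      Finset.sum_add_distrib, Finset.sum_const, nsmul_eq_mul]
    have := Finset.sum_le_univ_sum_of_nonneg (f := fun τ => |B τ|) (s := X) fun τ => abs_nonneg _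
    linarith [mul_le_mul_of_nonneg_left this hn0.le]
  rw [← hE2, hX] at hsumX
  have hL0 : 0 ≤ L₀ := Real.log_nonneg (by
    rw [le_div_iff₀ (by linarith [hs.1]), one_mul]; linarith [hs.2])
  have hc1 : c ≤ 1 := by
    rw [hc, div_le_one (Nat.cast_pos.mpr Nat.card_pos), Nat.cast_le]
    exact Nat.card_le_card_of_injective _ Subtype.val_injective
  rw [hX, sub_le_iff_le_add, ← sub_le_iff_le_add', le_div_iff₀ hD0]
  have h9 := mul_le_mul_of_nonneg_right (mul_le_mul_of_nonneg_right hc1 hδ.le)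
    (mul_nonneg hL0 hD0.le)
  nlinarith [hsumX, hE1, h9]

end FA.Chebotarev

end
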