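import Fermat.Agent.Chebotarev.Pair
import Fermat.Agent.Weight1.Density
import Mathlib.NumberTheory.NumberField.DirichletDensity

/-!
# Chebotarev's density theorem over `ℚ`, for the absolute Galois group

For a homomorphism of the absolute Galois group onto a finite group `G` with open kernel and a
subset `X` of `G` stable under conjugation, the primes whose Frobenius elements all map into `X`
have Dirichlet density `|X| / |G|`.

The lower bound is the sum over the pairs `(σ, a)`, `σ ∈ X`, `a` of order divisible by `|G|` in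
`(ℤ/m)ˣ/±1`, of the lower bounds of `exists_pair_lower`; the upper bound is the lower bound for the
complement.
-/

set_option autoImplicit false
set_option linter.style.haveILetI false

noncomputable section

open NumberField IntermediateField IsDedekindDomain Filter Topology FA.Density
open FA.Ext (zN zN_nonneg primeIdeal zN_primeIdeal exists_sum_le exists_lower_bound)
open FA.Weight1 (PmUnits pmOne cycPm cycM InClass hits)
open scoped Classical

namespace FA.Chebotarev

local notation "Qb" => AlgebraicClosure ℚ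
local notation "GQ" => AlgebraicClosure ℚ ≃ₐ[ℚ] AlgebraicClosure ℚ

theorem weighted_le {G U : Type*} [Group G] [Fintype G] [CommGroup U] {X : Set G}
    (hX : ∀ g ∈ X, ∀ x, x * g * x⁻¹ ∈ X) (A : Finset U) (g : G × U) :
    ∑ σ ∈ X.toFinset, ∑ a ∈ A, (if g.2 = a then (hits σ g.1 : ℝ) else 0) ≤
      Fintype.card G * (if g.1 ∈ X then 1 else 0) := by
  calc _ ≤ ∑ σ ∈ X.toFinset, (hits σ g.1 : ℝ) := Finset.sum_le_sum fun σ _ => by
        rw [Finset.sum_ite_eq]
        split_ifs
        · exact le_rfl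
        · exact Nat.cast_nonneg _
    _ ≤ _ := by
        by_cases hg : g.1 ∈ X
        · rw [if_pos hg, mul_one, ← Nat.cast_sum, FA.Weight1.sum_hits hX hg]
        · rw [if_neg hg, mul_zero]
          exact (Finset.sum_eq_zero fun σ hσ => by
            rw [FA.Weight1.hits_eq_zero_of_not_mem hX (by simpa using hσ) hg, Nat.cast_zero]).le

/-- The lower bound. -/
theorem exists_density_lower {G : Type} [Group G] [Fintype G] (π : GQ →* G)
    (hπ : Function.Surjective π) (hker : IsOpen (π.ker : Set GQ)) {X : Set G}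
    (hX : ∀ g ∈ X, ∀ x, x * g * x⁻¹ ∈ X) {δ : ℝ} (hδ : 0 < δ) :
    ∃ C : ℝ, ∀ᶠ s in 𝓝[>] (1 : ℝ), ∃ T : Finset ℕ,
      (∀ p ∈ T, p.Prime ∧ ∀ A : ValuationSubring Qb, A.LiesOverPrime p →
        ∀ σ : GQ, A.IsFrobeniusAt σ p → π σ ∈ X) ∧
      ((Nat.card X : ℝ) / Fintype.card G - δ) * Real.log (1 / (s - 1)) - C ≤
        ∑ p ∈ T, (p : ℝ) ^ (-s) := by
  set n := Fintype.card G with hn
  have hn0 : 0 < n := Fintype.card_pos
  obtain ⟨k, hk⟩ := pow_unbounded_of_one_lt ((n : ℝ) / δ) one_lt_two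
  set k' := k + 1
  obtain ⟨m, hm, hm2, hdiv, hsurj⟩ := FA.Weight1.exists_level π hπ (c := n ^ k') (pow_pos hn0 _)
  let _ : Fintype (PmUnits m) := Fintype.ofFinite _
  rw [Nat.card_eq_fintype_card] at hdiv
  have : IsCyclic (PmUnits m) :=
    isCyclic_of_surjective (QuotientGroup.mk' (pmOne m)) (QuotientGroup.mk'_surjective _)
  -- the field
  set θ := π.prod (cycPm m) with hθ
  set N := θ.ker
  have hNo : IsOpen (N : Set GQ) := by
    have : Fact (1 < m) := ⟨hm.1.one_lt⟩
    obtain ⟨L, hL, hLc⟩ := FA.Weight1.exists_field_cycM m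
    refine Subgroup.isOpen_mono (H₁ := π.ker ⊓ L.fixingSubgroup) (fun g hg => ?_)
      (hker.inter (IntermediateField.fixingSubgroup_isOpen L))
    obtain ⟨h1, h2⟩ := hg
    rw [MonoidHom.mem_ker]
    refine Prod.ext h1 ?_
    show QuotientGroup.mk' (pmOne m) (cycM m g) = 1
    rw [hLc g ((IntermediateField.mem_fixingSubgroup_iff L g).mp h2), map_one]
  let F : IntermediateField ℚ Qb := IntermediateField.fixedField N
  have hFN : F.fixingSubgroup = N :=
    InfiniteGalois.fixingSubgroup_fixedField ⟨N, Subgroup.isClosed_of_isOpen N hNo⟩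
  have hFnorm : F.fixingSubgroup.Normal := hFN.symm ▸ MonoidHom.normal_ker θ
  have hFgal : IsGalois ℚ F := (InfiniteGalois.normal_iff_isGalois F).mp hFnorm
  have hFfin : FiniteDimensional ℚ F :=
    (InfiniteGalois.isOpen_iff_finite F).mp (by rw [hFN]; exact hNo)
  have : NumberField F := { }
  let res : GQ →* (F ≃ₐ[ℚ] F) := AlgEquiv.restrictNormalHom F
  have hres : res.ker = N := (IntermediateField.restrictNormalHom_ker F).trans hFN
  have hres_surj : Function.Surjective res :=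
    AlgEquiv.restrictNormalHom_surjective (F := ℚ) (K₁ := F) Qb
  let φ : (F ≃ₐ[ℚ] F) →* G × PmUnits m := res.liftOfSurjective hres_surj ⟨θ, hres.le⟩
  have hφ : ∀ g : GQ, φ (res g) = θ g :=
    MonoidHom.liftOfRightInverse_comp_apply _ _ _ ⟨θ, hres.le⟩
  have hφb : Function.Bijective φ := by
    refine ⟨(injective_iff_map_eq_one φ).mpr fun z hz => ?_, fun p => ?_⟩
    · obtain ⟨g, rfl⟩ := hres_surj z
      rw [hφ] at hz
      rw [← MonoidHom.mem_ker, hres]
      exact hz
    · obtain ⟨g, rfl⟩ := hsurj p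
      exact ⟨res g, hφ g⟩
  let e : (F ≃ₐ[ℚ] F) ≃* G × PmUnits m := MulEquiv.ofBijective φ hφb
  -- the Frobenius system
  have hex : ∀ q : ℕ, ∃ A : ValuationSubring Qb, ∃ σ : GQ, q.Prime →
      A.LiesOverPrime q ∧ A.IsFrobeniusAt σ q := fun q => by
    by_cases hq : q.Prime
    · obtain ⟨A, hA⟩ := FA.Deform.exists_liesOverPrime hq
      obtain ⟨σ, hσ⟩ := FA.Deform.exists_isFrobeniusAt hq hA
      exact ⟨A, σ, fun _ => ⟨hA, hσ⟩⟩
    · exact ⟨⊤, 1, fun h => absurd h hq⟩
  choose A₁ σ₁ hAσ using hex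
  set 𝔉₀ := frobSystem F A₁ σ₁ hAσ
  let 𝔉 : FrobSystem F :=
    { frob := 𝔉₀.frob
      excluded := 𝔉₀.excluded ∪ {m}
      spec := fun q hq hex => 𝔉₀.spec q hq fun h => hex (Finset.mem_union_left _ h) }
  have hgood : ∀ q, 𝔉.Good q → q.Prime ∧ q ∉ 𝔉₀.excluded ∧ q ≠ m := fun q hq => by
    refine ⟨hq.1, ?_⟩
    have := hq.2
    simp [𝔉, not_or] at this
    tauto
  have hefrob : ∀ q, e (𝔉.frob q) = θ (σ₁ q) := fun q => hφ (σ₁ q)
  have hq : ∀ q, 𝔉.Good q → ∀ u, InClass m u q ↔ (e (𝔉.frob q)).2 = u := by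
    intro q hg u
    obtain ⟨hqp, -, hqm⟩ := hgood q hg
    obtain ⟨hA, hσ⟩ := hAσ q hqp
    have hc := FA.Weight1.cycM_frobenius m hqp
      (fun h => hqm ((Nat.prime_dvd_prime_iff_eq hqp hm.1).mp h)) hA hσ
    rw [hefrob]
    show InClass m u q ↔ QuotientGroup.mk' (pmOne m) (cycM m (σ₁ q)) = u
    constructor
    · rintro ⟨w, hw, rfl⟩
      rw [show cycM m (σ₁ q) = w from Units.ext (hc.trans hw.symm)]
    · exact fun h => ⟨_, hc, h⟩
  -- the pairs
  set Agood := Finset.univ.filter fun a : PmUnits m => n ∣ orderOf a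
  set idx := X.toFinset ×ˢ Agood
  set nU : ℝ := (Fintype.card (PmUnits m) : ℝ) with hnU
  have hnU0 : 0 < nU := Nat.cast_pos.mpr Fintype.card_pos
  have hpair : ∀ p : G × PmUnits m, ∃ B : ℝ, p ∈ idx → ∀ᶠ s in 𝓝[>] (1 : ℝ),
      ∃ S : Finset ℕ, (∀ q ∈ S, 𝔉.Good q) ∧ Real.log (1 / (s - 1)) - B ≤ nU * ∑ q ∈ S,
        (if (e (𝔉.frob q)).2 = p.2 then (hits p.1 (e (𝔉.frob q)).1 : ℝ) else 0) *
          (q : ℝ) ^ (-s) := fun p => by
    by_cases hp : p ∈ idx
    · have h1 : p.1 ^ orderOf p.2 = 1 := by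
        obtain ⟨j, hj⟩ := (Finset.mem_filter.mp (Finset.mem_product.mp hp).2).2
        rw [hj, pow_mul, hn, pow_card_eq_one, one_pow]
      obtain ⟨B, hB⟩ := exists_pair_lower 𝔉 e hq h1
      exact ⟨B, fun _ => hB⟩
    · exact ⟨0, fun h => absurd h hp⟩
  choose B hB using hpair
  refine ⟨(∑ p ∈ idx, |B p|) / (n * nU), ?_⟩
  filter_upwards [(Finset.eventually_all idx).mpr fun p hp => hB p hp, Ioc_one_two_mem]
    with s hev hs
  have hS : ∀ p : G × PmUnits m, ∃ S : Finset ℕ, (∀ q ∈ S, 𝔉.Good q) ∧ (p ∈ idx →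
      Real.log (1 / (s - 1)) - B p ≤ nU * ∑ q ∈ S,
        (if (e (𝔉.frob q)).2 = p.2 then (hits p.1 (e (𝔉.frob q)).1 : ℝ) else 0) *
          (q : ℝ) ^ (-s)) := fun p => by
    by_cases hp : p ∈ idx
    · obtain ⟨S, h1, h2⟩ := hev p hp
      exact ⟨S, h1, fun _ => h2⟩
    · exact ⟨∅, by simp, fun h => absurd h hp⟩
  choose S hSgood hSsum using hS
  set U := idx.biUnion S
  refine ⟨U.filter fun q => (e (𝔉.frob q)).1 ∈ X, fun q hqT => ?_, ?_⟩
  · obtain ⟨hqU, hqX⟩ := Finset.mem_filter.mp hqT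
    obtain ⟨p, -, hqp⟩ := Finset.mem_biUnion.mp hqU
    obtain ⟨hqpr, hqex, hqm⟩ := hgood q (hSgood p q hqp)
    refine ⟨hqpr, fun A hA σ hσ => ?_⟩
    have hunr : ∀ A : ValuationSubring Qb, A.LiesOverPrime q →
        ∀ σ ∈ A.inertiaSubgroupIn ℚ, π σ = 1 := fun A hA σ hσ => by
      have hd : ¬ q ∣ (exists_unramified F).choose := fun h =>
        hqex (Nat.mem_divisors.mpr ⟨h, (exists_unramified F).choose_spec.1⟩)
      have h1 := FA.Weight1.inertia_restrict_eq_one F hqpr hd hA hσ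
      rw [← MonoidHom.mem_ker, hres] at h1
      exact congrArg Prod.fst (MonoidHom.mem_ker.mp h1)
    obtain ⟨hA₁, hσ₁⟩ := hAσ q hqpr
    obtain ⟨τ, hτ⟩ := FA.TW.exists_conj_frobenius π hqpr hunr hA₁ hA hσ₁ hσ
    rw [hτ, map_inv]
    refine hX _ ?_ _
    rw [hefrob] at hqX
    exact hqX
  set L := Real.log (1 / (s - 1))
  have hL : 0 ≤ L := Real.log_nonneg (by
    rw [le_div_iff₀ (by linarith [hs.1]), one_mul]; linarith [hs.2])
  have h1 : ∑ p ∈ idx, (L - B p) ≤
      nU * (n * ∑ q ∈ U.filter (fun q => (e (𝔉.frob q)).1 ∈ X), (q : ℝ) ^ (-s)) := by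
    calc ∑ p ∈ idx, (L - B p) ≤ ∑ p ∈ idx, nU * ∑ q ∈ U,
          (if (e (𝔉.frob q)).2 = p.2 then (hits p.1 (e (𝔉.frob q)).1 : ℝ) else 0) *
            (q : ℝ) ^ (-s) := Finset.sum_le_sum fun p hp => (hSsum p hp).trans
            (mul_le_mul_of_nonneg_left (Finset.sum_le_sum_of_subset_of_nonneg
              (Finset.subset_biUnion_of_mem S hp) fun q _ _ => mul_nonneg
                (by split_ifs <;> simp) (Real.rpow_nonneg (Nat.cast_nonneg _) _)) hnU0.le)
      _ = nU * ∑ q ∈ U, (∑ σ ∈ X.toFinset, ∑ a ∈ Agood,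
          (if (e (𝔉.frob q)).2 = a then (hits σ (e (𝔉.frob q)).1 : ℝ) else 0)) *
          (q : ℝ) ^ (-s) := by
        rw [← Finset.mul_sum, Finset.sum_comm]
        congr 1
        refine Finset.sum_congr rfl fun q _ => ?_
        rw [← Finset.sum_mul, Finset.sum_product]
      _ ≤ _ := by
        refine mul_le_mul_of_nonneg_left ?_ hnU0.le
        rw [Finset.mul_sum, Finset.sum_filter]
        refine Finset.sum_le_sum fun q _ => le_trans (mul_le_mul_of_nonneg_right
          (c := (Fintype.card G : ℝ) * (if (e (𝔉.frob q)).1 ∈ X then 1 else 0))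
          (by convert weighted_le hX Agood (e (𝔉.frob q)); rfl)
          (Real.rpow_nonneg (Nat.cast_nonneg _) _)) (le_of_eq ?_)
        split_ifs <;> simp [hn]
  rw [Finset.sum_sub_distrib, Finset.sum_const, nsmul_eq_mul, Finset.card_product] at h1
  have hBsum : ∑ p ∈ idx, B p ≤ ∑ p ∈ idx, |B p| :=
    Finset.sum_le_sum fun p _ => le_abs_self _
  -- the count of the elements of large order
  have hA : (1 - δ) * nU ≤ (Agood.card : ℝ) := by
    have h2 := FA.Weight1.card_not_dvd_orderOf_le (U := PmUnits m) (n := n) (k := k')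
      (Nat.succ_pos k) hdiv
    have h3 : (Agood.card : ℝ) + ((Finset.univ.filter
        fun a : PmUnits m => ¬ n ∣ orderOf a).card : ℝ) = nU := by
      rw [hnU, ← Nat.cast_add, Nat.cast_inj]
      exact Finset.card_filter_add_card_filter_not _
    have h4 : (n : ℝ) ≤ δ * 2 ^ k' := by
      rw [pow_succ]
      rw [div_lt_iff₀ hδ] at hk
      nlinarith [pow_pos (two_pos (α := ℝ)) k]
    have h5 : ((Finset.univ.filter fun a : PmUnits m => ¬ n ∣ orderOf a).card : ℝ) * 2 ^ k' ≤
        n * nU := by rw [hnU]; exact_mod_cast h2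
    have h6 : ((Finset.univ.filter fun a : PmUnits m => ¬ n ∣ orderOf a).card : ℝ) ≤ δ * nU := by
      refine le_of_mul_le_mul_right ?_ (pow_pos (two_pos (α := ℝ)) k')
      nlinarith [mul_le_mul_of_nonneg_right h4 hnU0.le]
    linarith
  set x : ℝ := (Nat.card X : ℝ) with hx
  have hXc : (X.toFinset.card : ℝ) = x := by
    rw [hx, Nat.card_coe_set_eq, Set.ncard_eq_toFinset_card']
  have hxn : x ≤ n := by rw [← hXc, hn, Nat.cast_le]; exact Finset.card_le_univ _
  have hx0 : 0 ≤ x := Nat.cast_nonneg _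
  push_cast at h1
  rw [hXc] at h1
  have h7 : x * ((1 - δ) * nU) * L ≤ x * (Agood.card : ℝ) * L :=
    mul_le_mul_of_nonneg_right (mul_le_mul_of_nonneg_left hA hx0) hL
  have h8 : x * δ * L ≤ n * δ * L :=
    mul_le_mul_of_nonneg_right (mul_le_mul_of_nonneg_right hxn hδ.le) hL
  rw [show ((x / n - δ) * L - (∑ p ∈ idx, |B p|) / (n * nU)) =
    (nU * (x - n * δ) * L - ∑ p ∈ idx, |B p|) / (n * nU) by field_simp,
    div_le_iff₀ (by positivity)]
  nlinarith [mul_le_mul_of_nonneg_left h8 hnU0.le]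

/-! ### The primes of `ℚ` -/

theorem absNorm_prime (v : HeightOneSpectrum (𝓞 ℚ)) : (Ideal.absNorm v.asIdeal).Prime := by
  obtain ⟨ℓ, hℓ, hv⟩ := FA.Ext.exists_rat_prime_mem v
  have h1 : Ideal.absNorm (Ideal.span {(ℓ : 𝓞 ℚ)}) = ℓ := by
    rw [Ideal.absNorm_span_singleton, show (ℓ : 𝓞 ℚ) = algebraMap ℤ (𝓞 ℚ) ℓ by simp,
      Algebra.norm_algebraMap]
    simp [RingOfIntegers.rank]
  have h2 : Ideal.absNorm v.asIdeal ∣ ℓ :=
    (map_dvd Ideal.absNorm (Ideal.dvd_iff_le.mpr
      ((Ideal.span_singleton_le_iff_mem _).mpr hv))).trans h1.dvd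
  rcases (Nat.dvd_prime hℓ).mp h2 with h | h
  · exact absurd (Ideal.absNorm_eq_one_iff.mp h) v.isPrime.ne_top
  · rwa [h]

theorem exists_absNorm_eq {q : ℕ} (hq : q.Prime) :
    ∃ v : HeightOneSpectrum (𝓞 ℚ), Ideal.absNorm v.asIdeal = q := by
  have h1 : Ideal.absNorm (Ideal.span {(q : 𝓞 ℚ)}) = q := by
    rw [Ideal.absNorm_span_singleton, show (q : 𝓞 ℚ) = algebraMap ℤ (𝓞 ℚ) q by simp,
      Algebra.norm_algebraMap]
    simp [RingOfIntegers.rank]
  refine ⟨⟨Ideal.span {(q : 𝓞 ℚ)}, Ideal.isPrime_of_irreducible_absNorm (by rw [h1]; exact hq),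
    fun h => hq.ne_zero ?_⟩, h1⟩
  rw [← h1, h, Ideal.absNorm_bot]

/-- The primes whose Frobenius elements map into `X`. -/
def frobSet {G : Type*} [Group G] (π : GQ →* G) (X : Set G) : Set (HeightOneSpectrum (𝓞 ℚ)) :=
  {v | ∀ A : ValuationSubring Qb, A.LiesOverPrime (Ideal.absNorm v.asIdeal) →
    ∀ σ : GQ, A.IsFrobeniusAt σ (Ideal.absNorm v.asIdeal) → π σ ∈ X}

theorem summable_subtype_zN (S : Set (HeightOneSpectrum (𝓞 ℚ))) {s : ℝ} (hs : 1 < s) :
    Summable fun v : S => zN s (primeIdeal v.1) :=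
  (summable_zN_primeIdeal hs).subtype S

theorem primeIdealZetaSum_eq (S : Set (HeightOneSpectrum (𝓞 ℚ))) (s : ℝ) :
    S.primeIdealZetaSum s = ∑' v : S, zN s (primeIdeal v.1) := by
  simp only [Set.primeIdealZetaSum_def, zN_primeIdeal]

theorem exists_primeIdealZetaSum_lower {G : Type} [Group G] [Fintype G] (π : GQ →* G)
    (hπ : Function.Surjective π) (hker : IsOpen (π.ker : Set GQ)) {X : Set G}
    (hX : ∀ g ∈ X, ∀ x, x * g * x⁻¹ ∈ X) {δ : ℝ} (hδ : 0 < δ) :
    ∃ C : ℝ, ∀ᶠ s in 𝓝[>] (1 : ℝ), ((Nat.card X : ℝ) / Fintype.card G - δ) *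
      Real.log (1 / (s - 1)) - C ≤ (frobSet π X).primeIdealZetaSum s := by
  obtain ⟨C, hC⟩ := exists_density_lower π hπ hker hX hδ
  refine ⟨C, ?_⟩
  filter_upwards [hC, self_mem_nhdsWithin] with s ⟨T, hT, hsum⟩ hs
  refine hsum.trans ?_
  choose v hv using fun q : T => exists_absNorm_eq (hT q.1 q.2).1
  have hmem : ∀ q : T, v q ∈ frobSet π X := fun q A hA σ hσ => by
    rw [hv q] at hA hσ
    exact (hT q.1 q.2).2 A hA σ hσ
  have hinj : Function.Injective fun q : T => (⟨v q, hmem q⟩ : frobSet π X) := fun a b h => by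
    exact Subtype.ext ((hv a).symm.trans
      ((congrArg (fun w : frobSet π X => Ideal.absNorm w.1.asIdeal) h).trans (hv b)))
  rw [primeIdealZetaSum_eq, ← Finset.sum_attach]
  refine le_trans (le_of_eq ?_) ((summable_subtype_zN _ hs).sum_le_tsum
    (Finset.univ.image fun q : T => (⟨v q, hmem q⟩ : frobSet π X)) fun w _ => zN_nonneg _ _)
  rw [Finset.sum_image fun a _ b _ h => hinj h, Finset.univ_eq_attach]
  exact Finset.sum_congr rfl fun q _ => by rw [zN_primeIdeal, hv q]

theorem tendsto_log_atTop : Tendsto (fun s : ℝ => Real.log (1 / (s - 1))) (𝓝[>] 1) atTop := by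
  refine Real.tendsto_log_atTop.comp ?_
  simp only [one_div]
  refine tendsto_inv_nhdsGT_zero.comp (tendsto_nhdsWithin_iff.mpr ⟨?_, ?_⟩)
  · exact ((continuous_id.sub continuous_const).tendsto' (1 : ℝ) 0 (by simp)).mono_left
      nhdsWithin_le_nhds
  · filter_upwards [self_mem_nhdsWithin] with s hs using sub_pos.mpr hs.out

/-- **Chebotarev's density theorem over `ℚ`**, for the absolute Galois group. -/
theorem hasDirichletDensity_frobSet {G : Type} [Group G] [Fintype G] (π : GQ →* G)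
    (hπ : Function.Surjective π) (hker : IsOpen (π.ker : Set GQ)) {X : Set G}
    (hX : ∀ g ∈ X, ∀ x, x * g * x⁻¹ ∈ X) :
    (frobSet π X).HasDirichletDensity ((Nat.card X : ℝ) / Fintype.card G) := by
  obtain ⟨M, hM⟩ := exists_sum_le ℚ
  have htot : ∀ s ∈ Set.Ioc (1 : ℝ) 2, (Set.univ : Set (HeightOneSpectrum (𝓞 ℚ))).primeIdealZetaSum
      s ≤ Real.log (1 / (s - 1)) + M := fun s hs => by
    rw [primeIdealZetaSum_eq, tsum_univ fun v : HeightOneSpectrum (𝓞 ℚ) => zN s (primeIdeal v)]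
    exact Real.tsum_le_of_sum_le (fun v => zN_nonneg _ _) (hM s hs)
  set L : ℝ → ℝ := fun s => Real.log (1 / (s - 1))
  have hden : Tendsto (fun s => (Set.univ : Set (HeightOneSpectrum (𝓞 ℚ))).primeIdealZetaSum s /
      L s) (𝓝[>] 1) (𝓝 1) := by
    obtain ⟨M', hM'⟩ := exists_lower_bound ℚ
    refine tendsto_of_tendsto_of_tendsto_of_le_of_le'
      (g := fun s => 1 - M' / L s) (h := fun s => 1 + M / L s)
      (by simpa only [sub_zero] using (tendsto_log_atTop.const_div_atTop M').const_sub 1)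
      (by simpa only [add_zero] using (tendsto_log_atTop.const_div_atTop M).const_add 1) ?_ ?_
    · filter_upwards [Ioc_one_two_mem, tendsto_log_atTop.eventually_gt_atTop 0] with s hs hL
      obtain ⟨T, -, hT⟩ := hM' s hs
      rw [le_div_iff₀ hL, sub_mul, one_mul, div_mul_cancel₀ _ hL.ne', primeIdealZetaSum_eq,
        tsum_univ fun v : HeightOneSpectrum (𝓞 ℚ) => zN s (primeIdeal v)]
      exact hT.trans ((summable_zN_primeIdeal hs.1).sum_le_tsum _ fun v _ => zN_nonneg _ _)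
    · filter_upwards [Ioc_one_two_mem, tendsto_log_atTop.eventually_gt_atTop 0] with s hs hL
      rw [div_le_iff₀ hL, add_mul, one_mul, div_mul_cancel₀ _ hL.ne']
      exact htot s hs
  -- the two bounds
  have hXc : ∀ g ∈ Xᶜ, ∀ y, y * g * y⁻¹ ∈ Xᶜ := fun g hg y h => hg (by
    have := hX _ h y⁻¹
    rwa [show y⁻¹ * (y * g * y⁻¹) * y⁻¹⁻¹ = g by group] at this)
  set x : ℝ := (Nat.card X : ℝ) / Fintype.card G with hx
  have hxc : (Nat.card (Xᶜ : Set G) : ℝ) / Fintype.card G = 1 - x := by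
    rw [hx, eq_sub_iff_add_eq, ← add_div, ← Nat.cast_add, Nat.card_coe_set_eq,
      Nat.card_coe_set_eq, add_comm, Set.ncard_add_ncard_compl, Nat.card_eq_fintype_card,
      div_self (Nat.cast_ne_zero.mpr Fintype.card_ne_zero)]
  have hnum : Tendsto (fun s => (frobSet π X).primeIdealZetaSum s / L s) (𝓝[>] 1) (𝓝 x) := by
    refine tendsto_order.mpr ⟨fun b hb => ?_, fun b hb => ?_⟩
    · obtain ⟨C, hC⟩ := exists_primeIdealZetaSum_lower π hπ hker hX
        (δ := (x - b) / 2) (by linarith)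
      filter_upwards [hC, tendsto_log_atTop.eventually_gt_atTop 0,
        (tendsto_log_atTop.const_div_atTop C).eventually
          (eventually_lt_nhds (show (0 : ℝ) < (x - b) / 2 by linarith))] with s hs hL hCL
      rw [div_lt_iff₀ hL] at hCL
      rw [lt_div_iff₀ hL]
      rw [← hx] at hs
      linarith
    · obtain ⟨C, hC⟩ := exists_primeIdealZetaSum_lower π hπ hker hXc
        (δ := (b - x) / 2) (by linarith)
      filter_upwards [hC, Ioc_one_two_mem, tendsto_log_atTop.eventually_gt_atTop 0,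
        (tendsto_log_atTop.const_div_atTop (C + M)).eventually
          (eventually_lt_nhds (show (0 : ℝ) < (b - x) / 2 by linarith))] with s hs hs2 hL hCL
      rw [div_lt_iff₀ hL] at hCL
      rw [div_lt_iff₀ hL]
      rw [hxc] at hs
      have hdisj : Disjoint (frobSet π X) (frobSet π Xᶜ) := by
        refine Set.disjoint_left.mpr fun v h1 h2 => ?_
        obtain ⟨A, hA⟩ := FA.Deform.exists_liesOverPrime (absNorm_prime v)
        obtain ⟨σ, hσ⟩ := FA.Deform.exists_isFrobeniusAt (absNorm_prime v) hA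
        exact h2 A hA σ hσ (h1 A hA σ hσ)
      have hadd : (frobSet π X).primeIdealZetaSum s + (frobSet π Xᶜ).primeIdealZetaSum s ≤
          L s + M := by
        refine le_trans ?_ (htot s hs2)
        simp only [primeIdealZetaSum_eq]
        rw [← Summable.tsum_union_disjoint (f := fun v : HeightOneSpectrum (𝓞 ℚ) =>
            zN s (primeIdeal v)) hdisj
          (summable_subtype_zN (frobSet π X) hs2.1)
          (summable_subtype_zN (frobSet π Xᶜ) hs2.1),
          tsum_univ fun v : HeightOneSpectrum (𝓞 ℚ) => zN s (primeIdeal v)]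
        exact Summable.tsum_subtype_le (fun v => zN s (primeIdeal v)) _ (fun v => zN_nonneg _ _)
          (summable_zN_primeIdeal hs2.1)
      linarith
  have h := hnum.div hden one_ne_zero
  rw [div_one] at h
  refine h.congr' ?_
  filter_upwards [tendsto_log_atTop.eventually_gt_atTop 0] with s hs
  exact div_div_div_cancel_right₀ hs.ne' _ _

end FA.Chebotarev

end
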