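import Fermat.Agent.Weight1.DensityL
import Mathlib.Analysis.Normed.Group.Tannery
import Mathlib.Analysis.SpecialFunctions.Pow.Deriv

/-!
# The value at `1` of the L-series of a character of the norms of ideals

For an even Dirichlet character `ψ` modulo a prime `m`, not trivial on the norms of the ideals of a
number field, the series `∑ ψ(N I) N(I)^(-s)` has a limit as `s` decreases to `1`.

A sum over the integers, weighted by a periodic function, differs from a multiple of the total sum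
by a quantity with a limit (dominated convergence). So the series is `κ(s) T(s)` up to a convergent
term, with `(s - 1) T(s)` convergent to a positive number and `κ` differentiable; as the series is
bounded, `κ(1) = 0`.
-/

set_option autoImplicit false
set_option linter.style.haveILetI false

noncomputable section

open NumberField NumberField.mixedEmbedding IsDedekindDomain Module Filter Topology Ideal FA.Ext
open FA.Weight1 (normVal normHom classSum)
open scoped nonZeroDivisors Classical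

namespace FA.Chebotarev

variable {K : Type*} [Field K] [NumberField K]

theorem Ioc_one_two_mem : Set.Ioc (1 : ℝ) 2 ∈ 𝓝[>] (1 : ℝ) :=
  Ioc_mem_nhdsGT one_lt_two

theorem continuous_iterm (x : 𝓞 K) : Continuous fun s : ℝ => iterm s x := by
  simp only [iterm, wterm]
  rcases eq_or_ne (mixedEmbedding.norm (intEmb K x)) 0 with h | h
  · simp only [weight, h, if_true, zero_mul]
    exact continuous_const
  · exact continuous_const.mul
      (continuous_const.rpow continuous_neg fun _ => Or.inl h)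

/-- The sum over a coset minus the one over the ideal has a limit at `1`. -/
theorem exists_coset_tendsto (a : 𝓞 K) (J : Ideal (𝓞 K)) :
    ∃ l : ℝ, Tendsto (fun s => (∑' y : J, iterm s (a + (y : 𝓞 K))) - latticeSum J s)
      (𝓝[>] 1) (𝓝 l) := by
  obtain ⟨C, R, hC, hCR⟩ := exists_wterm_lipschitz (K := K) ‖intEmb K a‖
  set e : ℝ := -((finrank ℚ K : ℝ) + 1) with he
  have he0 : e ≤ 0 := by have := (finrank ℚ K).cast_nonneg (α := ℝ); linarith
  set D : ℝ := C + max R 1 ^ (-e)
  set b : J → ℝ := fun y => D * ‖intEmb K y‖ ^ e + (if y = 0 then 1 else 0) with hb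
  have hbsum : Summable b := by
    refine Summable.add ((Summable.mul_left D ?_)) (hasSum_ite_eq (0 : J) (1 : ℝ)).summable
    exact (summable_norm_intEmb (by linarith : e < -(finrank ℚ K : ℝ))).comp_injective
      Subtype.val_injective
  refine ⟨∑' y : J, (iterm 1 (a + (y : 𝓞 K)) - iterm 1 (y : 𝓞 K)), ?_⟩
  refine (tendsto_tsum_of_dominated_convergence
    (f := fun (s : ℝ) (y : J) => iterm s (a + (y : 𝓞 K)) - iterm s (y : 𝓞 K)) hbsum
    (fun y => (((continuous_iterm _).sub (continuous_iterm _)).tendsto 1).mono_left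
      nhdsWithin_le_nhds) ?_).congr' ?_
  · filter_upwards [Ioc_one_two_mem] with s hs y
    rw [Real.norm_eq_abs]
    have h01 : |iterm s (a + (y : 𝓞 K)) - iterm s (y : 𝓞 K)| ≤ 1 := by
      have hs0 : (0 : ℝ) ≤ s := by linarith [hs.1]
      exact abs_sub_le_of_le_of_le (iterm_nonneg _ _) (iterm_le_one hs0 _) (iterm_nonneg _ _)
        (iterm_le_one hs0 _) |>.trans_eq (sub_zero _)
    rcases eq_or_ne y 0 with hy | hy
    · simp only [hb, if_pos hy]
      exact h01.trans (le_add_of_nonneg_left (by positivity))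
    simp only [hb, if_neg hy, add_zero]
    have hpos : 0 < ‖intEmb K (y : 𝓞 K)‖ := norm_pos_iff.mpr fun h =>
      hy (Subtype.ext (intEmb_injective (h.trans intEmb_zero.symm)))
    by_cases hR : R ≤ ‖intEmb K (y : 𝓞 K)‖
    · rw [iterm, iterm, intEmb_add, add_comm]
      refine (hCR _ _ le_rfl hR s hs).trans ?_
      exact mul_le_mul_of_nonneg_right (le_add_of_nonneg_right (by positivity)) (by positivity)
    · refine h01.trans ?_
      have hle : max R 1 ^ e ≤ ‖intEmb K (y : 𝓞 K)‖ ^ e :=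
        Real.rpow_le_rpow_of_nonpos hpos ((not_le.mp hR).le.trans (le_max_left _ _)) he0
      calc (1 : ℝ) = max R 1 ^ (-e) * max R 1 ^ e := by
            rw [← Real.rpow_add (by positivity), neg_add_cancel, Real.rpow_zero]
        _ ≤ D * ‖intEmb K (y : 𝓞 K)‖ ^ e :=
            mul_le_mul (le_add_of_nonneg_left hC) hle (by positivity) (by positivity)
  · filter_upwards [Ioc_one_two_mem] with s hs
    exact ((summable_iterm hs).comp_injective
      ((add_right_injective a).comp Subtype.val_injective)).tsum_sub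
      ((summable_iterm hs).comp_injective Subtype.val_injective)

/-- The total sum over the algebraic integers. -/
def totalSum (K : Type*) [Field K] [NumberField K] (s : ℝ) : ℝ := ∑' x : 𝓞 K, iterm s x

/-- A periodic weight on the integers. -/
theorem exists_periodic_tendsto (M : (Ideal (𝓞 K))⁰) (f : 𝓞 K → ℂ)
    (hf : ∀ x y : 𝓞 K, x - y ∈ M.1 → f x = f y) :
    ∃ c l : ℂ, Tendsto (fun s => (∑' x, f x * (iterm s x : ℂ)) - c * (totalSum K s : ℂ))
      (𝓝[>] 1) (𝓝 l) := by
  have : Finite (𝓞 K ⧸ M.1) :=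
    Ideal.finiteQuotientOfFreeOfNeBot M.1 (nonZeroDivisors.coe_ne_zero M)
  have : Fintype (𝓞 K ⧸ M.1) := Fintype.ofFinite _
  have hmk : ∀ t : 𝓞 K ⧸ M.1, Ideal.Quotient.mk M.1 (Quotient.out t) = t := Quotient.out_eq
  let e : (𝓞 K ⧸ M.1) × M.1 → 𝓞 K := fun ty => Quotient.out ty.1 + (ty.2 : 𝓞 K)
  have he : Function.Bijective e := by
    constructor
    · rintro ⟨t, y⟩ ⟨t', y'⟩ h
      obtain rfl : t = t' := by
        have := congrArg (Ideal.Quotient.mk M.1) h
        simpa [e, hmk, Ideal.Quotient.eq_zero_iff_mem.mpr y.2,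
          Ideal.Quotient.eq_zero_iff_mem.mpr y'.2] using this
      simpa [e] using h
    · intro x
      refine ⟨⟨Ideal.Quotient.mk M.1 x, ⟨x - Quotient.out (Ideal.Quotient.mk M.1 x), ?_⟩⟩, ?_⟩
      · rw [← Ideal.Quotient.eq_zero_iff_mem, map_sub, hmk, sub_self]
      · simp [e]
  set F : (𝓞 K ⧸ M.1) → ℂ := fun t => f (Quotient.out t)
  have hfe : ∀ ty, f (e ty) = F ty.1 := fun ty => hf _ _ (by simp [e])
  set sr : (𝓞 K ⧸ M.1) → ℝ → ℝ := fun t s => ∑' y : M.1, iterm s (Quotient.out t + (y : 𝓞 K))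
  -- the decomposition
  have hdec : ∀ (g : 𝓞 K → ℂ) (G : (𝓞 K ⧸ M.1) → ℂ), (∀ ty, g (e ty) = G ty.1) →
      ∀ s ∈ Set.Ioc (1 : ℝ) 2,
        ∑' x, g x * (iterm s x : ℂ) = ∑ t, G t * (sr t s : ℂ) := fun g G hg s hs => by
    have hs' : Summable fun ty => G ty.1 * (iterm s (e ty) : ℂ) := by
      refine Summable.of_norm_bounded (g := fun ty => (∑ t, ‖G t‖) * iterm s (e ty))
        (((summable_iterm hs).comp_injective he.1).mul_left _) fun ty => ?_
      rw [norm_mul, Complex.norm_real, Real.norm_of_nonneg (iterm_nonneg _ _)]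
      exact mul_le_mul_of_nonneg_right (Finset.single_le_sum (f := fun t => ‖G t‖)
        (fun t _ => norm_nonneg _) (Finset.mem_univ _)) (iterm_nonneg _ _)
    rw [← (Equiv.ofBijective e he).tsum_eq]
    simp only [Equiv.ofBijective_apply, hg]
    rw [hs'.tsum_prod, tsum_fintype]
    exact Finset.sum_congr rfl fun t _ => by rw [Complex.ofReal_tsum, ← tsum_mul_left]
  choose δ hδ using fun t : 𝓞 K ⧸ M.1 => exists_coset_tendsto (Quotient.out t) M.1
  set c : ℂ := (∑ t, F t) / (Fintype.card (𝓞 K ⧸ M.1) : ℂ) with hc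
  refine ⟨c, ∑ t, (F t - c) * (δ t : ℂ), ?_⟩
  refine (tendsto_finsetSum _ fun t _ => ((hδ t).ofReal.const_mul (F t - c))).congr' ?_
  filter_upwards [Ioc_one_two_mem] with s hs
  have hT : (totalSum K s : ℂ) = ∑ t, (sr t s : ℂ) := by
    have := hdec (fun _ => 1) (fun _ => 1) (fun _ => rfl) s hs
    simpa [totalSum, Complex.ofReal_tsum] using this
  have hsum : ∑ t, (F t - c) = 0 := by
    rw [Finset.sum_sub_distrib, Finset.sum_const, Finset.card_univ, nsmul_eq_mul, hc,
      mul_div_cancel₀ _ (Nat.cast_ne_zero.mpr Fintype.card_ne_zero), sub_self]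
  rw [hdec f F hfe s hs, hT, Finset.mul_sum, ← Finset.sum_sub_distrib]
  calc _ = ∑ t, (F t - c) * (sr t s : ℂ) - (∑ t, (F t - c)) * (latticeSum M.1 s : ℂ) := by
        rw [Finset.sum_mul, ← Finset.sum_sub_distrib]
        refine Finset.sum_congr rfl fun t _ => ?_
        rw [Complex.ofReal_sub, mul_sub]
    _ = _ := by
        rw [hsum, zero_mul, sub_zero]
        exact Finset.sum_congr rfl fun t _ => sub_mul _ _ _

/-- The total sum has a simple pole at `1`. -/
theorem tendsto_sub_one_mul_totalSum :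
    ∃ ρ : ℝ, 0 < ρ ∧ Tendsto (fun s => (s - 1) * totalSum K s) (𝓝[>] 1) (𝓝 ρ) := by
  set h : ℝ := (Fintype.card (ClassGroup (𝓞 K)) : ℝ)
  have hh : 0 < h := Nat.cast_pos.mpr Fintype.card_pos
  set τ : ℝ := (Units.torsionOrder K : ℝ)
  have hτ : 0 < τ := Nat.cast_pos.mpr (Units.torsionOrder_pos K)
  refine ⟨τ * dedekindZeta_residue K / h,
    div_pos (mul_pos hτ (dedekindZeta_residue_pos K)) hh, ?_⟩
  choose M hM using fun C : ClassGroup (𝓞 K) => exists_classZeta_sub_le (1 : ClassGroup (𝓞 K)) C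
  have hT : ∀ s ∈ Set.Ioc (1 : ℝ) 2, totalSum K s = τ * classZeta (1 : ClassGroup (𝓞 K)) s := by
    intro s hs
    have hkey := (classZeta_key (C := (1 : ClassGroup (𝓞 K))) (J := 1) (by simp) hs).2
    rw [show zN s (1 : (Ideal (𝓞 K))⁰) = 1 by simp [zN], mul_one] at hkey
    rw [← hkey, latticeSum, totalSum,
      show ((1 : (Ideal (𝓞 K))⁰) : Ideal (𝓞 K)) = ⊤ from Ideal.one_eq_top]
    exact ((Equiv.subtypeUnivEquiv fun x => Submodule.mem_top).tsum_eq
      (fun x : 𝓞 K => iterm s x)).symm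
  have hzero : Tendsto (fun s => (s - 1) *
      (h * classZeta (1 : ClassGroup (𝓞 K)) s - idealZeta K s)) (𝓝[>] 1) (𝓝 0) := by
    refine squeeze_zero_norm' (a := fun s => |s - 1| * ∑ C, M C) ?_ ?_
    · filter_upwards [Ioc_one_two_mem] with s hs
      have hζ : idealZeta K s = ∑ C : ClassGroup (𝓞 K), classZeta C s := by
        rw [idealZeta, ← (Equiv.sigmaFiberEquiv (ClassGroup.mk0 (R := 𝓞 K))).tsum_eq,
          Summable.tsum_sigma (f := fun c => zN s
            ((Equiv.sigmaFiberEquiv (ClassGroup.mk0 (R := 𝓞 K))) c))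
            ((Equiv.sigmaFiberEquiv _).summable_iff.mpr (summable_zN hs.1)),
          tsum_fintype]
        rfl
      rw [norm_mul, Real.norm_eq_abs, Real.norm_eq_abs, hζ, ← nsmul_eq_mul,
        ← Finset.card_univ, ← Finset.sum_const, ← Finset.sum_sub_distrib]
      exact mul_le_mul_of_nonneg_left
        ((Finset.abs_sum_le_sum_abs _ _).trans (Finset.sum_le_sum fun C _ => hM C s hs))
        (abs_nonneg _)
    · refine Tendsto.mono_left ?_ nhdsWithin_le_nhds
      exact (((continuous_id.sub continuous_const).abs).mul continuous_const).tendsto' _ _ (by simp)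
  have h1 := (hzero.add (tendsto_sub_one_mul_idealZeta (K := K))).const_mul (τ / h)
  rw [zero_add, div_mul_eq_mul_div] at h1
  refine h1.congr' ?_
  filter_upwards [Ioc_one_two_mem] with s hs
  rw [hT s hs]
  field_simp
  ring

variable {m : ℕ} [Fact m.Prime] (ψ : DirichletCharacter ℂ m)

/-- The L-series of `I ↦ ψ(N I)`. -/
def normL (K : Type*) [Field K] [NumberField K] (s : ℝ) : ℂ := ∑' I, normHom (K := K) ψ s I

/-- **The L-series has a limit at `1`.** -/
theorem exists_tendsto_normL (hψ : ψ (-1) = 1)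
    (h : ∃ I : (Ideal (𝓞 K))⁰, normVal ψ I.1 ≠ 0 ∧ normVal ψ I.1 ≠ 1) :
    ∃ ℓ : ℂ, Tendsto (normL ψ K) (𝓝[>] 1) (𝓝 ℓ) := by
  obtain ⟨B, hB⟩ := FA.Weight1.exists_norm_tsum_normHom_le (K := K) ψ hψ h
  obtain ⟨ρ, hρ0, hρ⟩ := tendsto_sub_one_mul_totalSum (K := K)
  choose J hJ hJm using FA.Weight1.exists_coprime_class (K := K) m
  have hv : ∀ C, normVal ψ (J C).1 ≠ 0 := fun C => FA.Weight1.normVal_ne_zero_of_sup ψ (hJm C)
  set P := Ideal.span {(m : 𝓞 K)}
  let f : ClassGroup (𝓞 K) → 𝓞 K → ℂ := fun C x =>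
    if x ∈ (J C).1 then normVal ψ (Ideal.span {x}) else 0
  have hf : ∀ C (x y : 𝓞 K), x - y ∈ (J C).1 * P → f C x = f C y := fun C x y hxy => by
    have h1 := Ideal.mul_le_inf hxy
    simp only [f, show (x ∈ (J C).1 ↔ y ∈ (J C).1) from
      ⟨fun hx => by simpa using sub_mem hx h1.1, fun hy => by simpa using add_mem h1.1 hy⟩,
      FA.Weight1.normVal_congr ψ hψ h1.2]
  choose c l hcl using fun C => exists_periodic_tendsto
    (⟨(J C).1 * P, mem_nonZeroDivisors_iff_ne_zero.mpr (mul_ne_zero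
      (nonZeroDivisors.coe_ne_zero (J C)) (FA.Weight1.span_natCast_ne_bot K m))⟩) (f C) (hf C)
  set τ : ℂ := (Units.torsionOrder K : ℂ)
  have hτ : τ ≠ 0 := Nat.cast_ne_zero.mpr (Units.torsionOrder_ne_zero K)
  let N : ClassGroup (𝓞 K) → ℝ := fun C => (absNorm (J C).1 : ℝ)
  have hN : ∀ C, 0 < N C := fun C => zero_lt_one.trans_le (one_le_absNorm (J C))
  let w : ClassGroup (𝓞 K) → ℝ → ℂ := fun C s => ((N C ^ s : ℝ) : ℂ) * (τ * normVal ψ (J C).1)⁻¹
  let κ : ℝ → ℂ := fun s => ∑ C, w C s * c C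
  have hident : ∀ s ∈ Set.Ioc (1 : ℝ) 2, normL ψ K s = κ s * (totalSum K s : ℂ) +
      ∑ C, w C s * ((∑' x, f C x * (iterm s x : ℂ)) - c C * (totalSum K s : ℂ)) := by
    intro s hs
    have hsum : Summable (normHom (K := K) ψ s) :=
      Summable.of_norm_bounded (summable_zN hs.1) (FA.Weight1.norm_normHom_le ψ s)
    have hL : normL ψ K s = ∑ C : ClassGroup (𝓞 K), classSum ψ C s := by
      rw [normL, ← (Equiv.sigmaFiberEquiv (ClassGroup.mk0 (R := 𝓞 K))).tsum_eq,
        Summable.tsum_sigma (f := fun c => normHom ψ s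
          ((Equiv.sigmaFiberEquiv (ClassGroup.mk0 (R := 𝓞 K))) c))
          ((Equiv.sigmaFiberEquiv _).summable_iff.mpr hsum), tsum_fintype]
      rfl
    rw [hL, Finset.sum_mul, ← Finset.sum_add_distrib]
    refine Finset.sum_congr rfl fun C _ => ?_
    have hkey : ∑' x, f C x * (iterm s x : ℂ) =
        τ * (zN s (J C) : ℂ) * normVal ψ (J C).1 * classSum ψ C s := by
      rw [← FA.Weight1.classSum_key ψ (hJ C) hs,
        ← tsum_subtype_eq_of_support_subset (s := ((J C).1 : Set (𝓞 K)))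
          (f := fun x => f C x * (iterm s x : ℂ)) fun x hx => by
          by_contra hc
          exact hx (by simp [f, SetLike.mem_coe.not.mp hc])]
      exact tsum_congr fun x => by simp [f]
    have h1 : ((N C ^ s : ℝ) : ℂ) * (zN s (J C) : ℂ) = 1 := by
      rw [← Complex.ofReal_mul, zN, ← Real.rpow_add (hN C), add_neg_cancel, Real.rpow_zero,
        Complex.ofReal_one]
    rw [hkey]
    have h2 : w C s * (τ * (zN s (J C) : ℂ) * normVal ψ (J C).1 * classSum ψ C s) =
        classSum ψ C s :=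
      calc _ = (((N C ^ s : ℝ) : ℂ) * (zN s (J C) : ℂ)) *
            ((τ * normVal ψ (J C).1)⁻¹ * (τ * normVal ψ (J C).1)) * classSum ψ C s := by
            simp only [w]; ring
        _ = _ := by rw [h1, inv_mul_cancel₀ (mul_ne_zero hτ (hv C)), one_mul, one_mul]
    linear_combination -h2
  have hwc : ∀ C, HasDerivAt (w C)
      (((Real.log (N C) * 1 * N C ^ (1 : ℝ) : ℝ) : ℂ) * (τ * normVal ψ (J C).1)⁻¹) 1 := fun C =>
    (((hasDerivAt_id (1 : ℝ)).const_rpow (hN C)).ofReal_comp).mul_const _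
  have hκ : HasDerivAt κ
      (∑ C, ((Real.log (N C) * 1 * N C ^ (1 : ℝ) : ℝ) : ℂ) * (τ * normVal ψ (J C).1)⁻¹ * c C) 1 :=
    HasDerivAt.fun_sum fun C _ => (hwc C).mul_const _
  set E : ℂ := ∑ C, w C 1 * l C
  have hE : Tendsto (fun s => ∑ C, w C s *
      ((∑' x, f C x * (iterm s x : ℂ)) - c C * (totalSum K s : ℂ))) (𝓝[>] 1) (𝓝 E) :=
    tendsto_finsetSum _ fun C _ =>
      ((hwc C).continuousAt.tendsto.mono_left nhdsWithin_le_nhds).mul (hcl C)
  have hs1 : Tendsto (fun s : ℝ => ((s - 1 : ℝ) : ℂ)) (𝓝[>] 1) (𝓝 0) :=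
    ((Complex.continuous_ofReal.comp (continuous_id.sub continuous_const)).tendsto' _ _
      (by simp)).mono_left nhdsWithin_le_nhds
  have hκ1 : κ 1 = 0 := by
    have ha : Tendsto (fun s => ((s - 1 : ℝ) : ℂ) * normL ψ K s) (𝓝[>] 1) (𝓝 0) := by
      refine squeeze_zero_norm' (a := fun s => ‖((s - 1 : ℝ) : ℂ)‖ * max B 0) ?_ ?_
      · filter_upwards [Ioc_one_two_mem] with s hs
        rw [norm_mul]
        exact mul_le_mul_of_nonneg_left ((hB s hs).trans (le_max_left _ _)) (norm_nonneg _)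
      · simpa using hs1.norm.mul_const (max B 0)
    have hb : Tendsto (fun s => ((s - 1 : ℝ) : ℂ) * normL ψ K s) (𝓝[>] 1) (𝓝 (κ 1 * ρ)) := by
      have h1 := ((hκ.continuousAt.tendsto.mono_left (nhdsWithin_le_nhds (s := Set.Ioi 1))).mul
        hρ.ofReal).add (hs1.mul hE)
      rw [zero_mul, add_zero] at h1
      refine h1.congr' ?_
      filter_upwards [Ioc_one_two_mem] with s hs
      rw [hident s hs]
      push_cast
      ring
    exact (mul_eq_zero.mp (tendsto_nhds_unique hb ha)).resolve_right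
      (Complex.ofReal_ne_zero.mpr hρ0.ne')
  refine ⟨_, ((((hasDerivAt_iff_tendsto_slope.mp hκ).mono_left
    (nhdsWithin_mono 1 fun s hs => (ne_of_gt hs : s ≠ 1))).mul hρ.ofReal).add hE).congr' ?_⟩
  filter_upwards [Ioc_one_two_mem] with s hs
  have hne : (s : ℂ) - 1 ≠ 0 := sub_ne_zero.mpr (by exact_mod_cast hs.1.ne')
  rw [hident s hs, slope_def_module, hκ1, sub_zero, Complex.real_smul]
  push_cast
  field_simp

end FA.Chebotarev

end
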