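import Fermat.Agent.Chebotarev.Limit
import Mathlib.Analysis.SpecialFunctions.Complex.LogBounds
import Mathlib.Analysis.Normed.Group.FunctionSeries

/-!
# The sum over the primes of a character of the norms stays bounded near `1`

If the real part of `∑_v ψ(N v) N(v)^(-s)` is bounded below near `1`, the limit of the L-series is
not zero, so that a continuous branch of its logarithm, hence the whole sum, is bounded near `1`.
-/

set_option autoImplicit false

noncomputable section

open NumberField IsDedekindDomain Filter Topology FA.Ext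
open FA.Weight1 (normVal normHom norm_normHom_le)
open scoped nonZeroDivisors Classical

namespace FA.Chebotarev

variable {K : Type*} [Field K] [NumberField K] {m : ℕ} [Fact m.Prime]
variable (ψ : DirichletCharacter ℂ m)

/-- The sum over the primes. -/
def primeSum (K : Type*) [Field K] [NumberField K] (s : ℝ) : ℂ :=
  ∑' v : HeightOneSpectrum (𝓞 K), normHom ψ s (primeIdeal v)

/-- The logarithm of the L-series given by the Euler product. -/
def logSum (K : Type*) [Field K] [NumberField K] (s : ℝ) : ℂ :=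
  ∑' v : HeightOneSpectrum (𝓞 K), -Complex.log (1 + -normHom ψ s (primeIdeal v))

theorem summable_zN_primeIdeal {s : ℝ} (hs : 1 < s) :
    Summable fun v : HeightOneSpectrum (𝓞 K) => zN s (primeIdeal v) :=
  (summable_zN hs).comp_injective fun _ _ h => HeightOneSpectrum.ext (congrArg Subtype.val h)

theorem norm_term_le_half {s : ℝ} (hs : 1 ≤ s) (v : HeightOneSpectrum (𝓞 K)) :
    ‖normHom ψ s (primeIdeal v)‖ ≤ 1 / 2 :=
  (norm_normHom_le ψ s _).trans (zN_primeIdeal_le_half hs v)

theorem summable_normHom_primeIdeal {s : ℝ} (hs : 1 < s) :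
    Summable fun v : HeightOneSpectrum (𝓞 K) => normHom ψ s (primeIdeal v) :=
  Summable.of_norm_bounded (summable_zN_primeIdeal hs) fun _ => norm_normHom_le ψ s _

theorem norm_log_le {s : ℝ} (hs : 1 ≤ s) (v : HeightOneSpectrum (𝓞 K)) :
    ‖-Complex.log (1 + -normHom ψ s (primeIdeal v))‖ ≤ 3 / 2 * zN s (primeIdeal v) := by
  rw [norm_neg]
  refine (Complex.norm_log_one_add_half_le_self
    ((norm_neg _).trans_le (norm_term_le_half ψ hs v))).trans ?_
  rw [norm_neg]
  exact mul_le_mul_of_nonneg_left (norm_normHom_le ψ s _) (by norm_num)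

theorem summable_log {s : ℝ} (hs : 1 < s) : Summable fun v : HeightOneSpectrum (𝓞 K) =>
    -Complex.log (1 + -normHom ψ s (primeIdeal v)) :=
  Summable.of_norm_bounded ((summable_zN_primeIdeal hs).mul_left _) fun v => norm_log_le ψ hs.le v

theorem exp_logSum {s : ℝ} (hs : 1 < s) : Complex.exp (logSum ψ K s) = normL ψ K s := by
  have hlt : ∀ v : HeightOneSpectrum (𝓞 K), ‖normHom ψ s (primeIdeal v)‖ < 1 := fun v => by
    linarith [norm_term_le_half ψ hs.le v]
  have hsum : Summable fun I => ‖normHom (K := K) ψ s I‖ :=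
    Summable.of_nonneg_of_le (fun _ => norm_nonneg _) (norm_normHom_le ψ s) (summable_zN hs)
  have h : HasProd _ (Complex.exp (logSum ψ K s)) := (summable_log (K := K) ψ hs).hasSum.cexp
  refine tendsto_nhds_unique h ((tendsto_eulerProduct _ hsum hlt).congr fun V => ?_)
  refine Finset.prod_congr rfl fun v _ => ?_
  have hne : (1 : ℂ) + -normHom ψ s (primeIdeal v) ≠ 0 := fun h => by
    have : ‖normHom ψ s (primeIdeal v)‖ = 1 := by
      rw [show normHom ψ s (primeIdeal v) = 1 by linear_combination -h, norm_one]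
    linarith [hlt v]
  rw [Function.comp_apply, Complex.exp_neg, Complex.exp_log hne, sub_eq_add_neg]

theorem continuousOn_logSum : ContinuousOn (logSum ψ K) (Set.Ioi 1) := by
  intro s hs
  have hs1 : (1 : ℝ) < (1 + s) / 2 := by linarith [hs.out]
  refine ContinuousAt.continuousWithinAt
    (ContinuousOn.continuousAt ?_ (Ioi_mem_nhds (show (1 + s) / 2 < s by linarith [hs.out])))
  refine continuousOn_tsum (fun v => ?_) ((summable_zN_primeIdeal hs1).mul_left (3 / 2))
    fun v t ht => (norm_log_le ψ (hs1.le.trans ht.out.le) v).trans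
      (mul_le_mul_of_nonneg_left ?_ (by norm_num))
  · refine ContinuousOn.neg (ContinuousOn.clog (continuousOn_const.add (ContinuousOn.neg ?_))
      fun t ht => ?_)
    · simp only [FA.Weight1.normHom_apply, zN]
      refine continuousOn_const.mul (Continuous.continuousOn (Complex.continuous_ofReal.comp ?_))
      exact continuous_const.rpow continuous_neg fun _ =>
        Or.inl (zero_lt_one.trans_le (one_le_absNorm _)).ne'
    · refine Complex.mem_slitPlane_of_norm_lt_one ?_
      rw [norm_neg]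
      linarith [norm_term_le_half ψ (hs1.le.trans ht.out.le) v]
  · exact Real.rpow_le_rpow_of_exponent_le (one_le_absNorm _) (neg_le_neg ht.out.le)

theorem norm_logSum_sub_primeSum_le {s : ℝ} (hs : 1 < s) :
    ‖logSum ψ K s - primeSum ψ K s‖ ≤ idealZeta K 2 := by
  have h2 : Summable fun v : HeightOneSpectrum (𝓞 K) => zN 2 (primeIdeal v) :=
    summable_zN_primeIdeal one_lt_two
  rw [logSum, primeSum, ← (summable_log ψ hs).tsum_sub (summable_normHom_primeIdeal ψ hs)]
  refine (tsum_of_norm_bounded h2.hasSum fun v => ?_).trans ?_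
  · set z := normHom ψ s (primeIdeal v)
    have hz : ‖z‖ ≤ 1 / 2 := norm_term_le_half ψ hs.le v
    have h1 := Complex.norm_log_one_add_sub_self_le (z := -z) (by rw [norm_neg]; linarith)
    rw [norm_neg] at h1
    rw [show -Complex.log (1 + -z) - z = -(Complex.log (1 + -z) - -z) by ring, norm_neg]
    refine h1.trans ?_
    have h3 : (1 - ‖z‖)⁻¹ ≤ 2 := by
      rw [inv_le_comm₀ (by linarith) two_pos]; linarith
    have hN : (1 : ℝ) ≤ Ideal.absNorm v.asIdeal := one_le_absNorm (primeIdeal v)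
    calc ‖z‖ ^ 2 * (1 - ‖z‖)⁻¹ / 2 ≤ ‖z‖ ^ 2 := by
          nlinarith [mul_le_mul_of_nonneg_left h3 (sq_nonneg ‖z‖)]
      _ ≤ zN s (primeIdeal v) ^ 2 := pow_le_pow_left₀ (norm_nonneg _) (norm_normHom_le ψ s _) 2
      _ ≤ _ := by
          rw [zN_primeIdeal, zN_primeIdeal, ← Real.rpow_natCast, ← Real.rpow_mul (by positivity)]
          exact Real.rpow_le_rpow_of_exponent_le hN (by push_cast; linarith)
  · exact tsum_comp_le_tsum_of_inj (summable_zN one_lt_two) (fun _ => zN_nonneg _ _)
      fun _ _ h => HeightOneSpectrum.ext (congrArg Subtype.val h)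

/-- The real part is bounded above. -/
theorem exists_re_primeSum_le (hψ : ψ (-1) = 1)
    (h : ∃ I : (Ideal (𝓞 K))⁰, normVal ψ I.1 ≠ 0 ∧ normVal ψ I.1 ≠ 1) :
    ∃ B : ℝ, ∀ s ∈ Set.Ioc (1 : ℝ) 2, (primeSum ψ K s).re ≤ B := by
  obtain ⟨B, hB⟩ := FA.Weight1.exists_re_sum_le (K := K) ψ hψ h
  exact ⟨B, fun s hs => le_of_tendsto
    ((Complex.continuous_re.tendsto _).comp (summable_normHom_primeIdeal ψ hs.1).hasSum) (hB s hs)⟩

/-- A continuous logarithm of a function tending to a nonzero value is bounded. -/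
theorem exists_norm_le_of_exp_tendsto {G : ℝ → ℂ} (hG : ContinuousOn G (Set.Ioi 1)) {ℓ : ℂ}
    (hℓ : ℓ ≠ 0) (h : Tendsto (fun s => Complex.exp (G s)) (𝓝[>] 1) (𝓝 ℓ)) :
    ∃ B : ℝ, ∀ᶠ s in 𝓝[>] 1, ‖G s‖ ≤ B := by
  have h1 : Tendsto (fun s => Complex.exp (G s) / ℓ) (𝓝[>] 1) (𝓝 1) := by
    simpa [hℓ] using h.div_const ℓ
  have hlog : Tendsto (fun s => Complex.log (Complex.exp (G s) / ℓ)) (𝓝[>] 1) (𝓝 0) := by
    simpa using h1.clog (by simp : (1 : ℂ) ∈ Complex.slitPlane)
  obtain ⟨u, hu, hev⟩ : ∃ u > (1 : ℝ), ∀ s ∈ Set.Ioo 1 u,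
      Complex.exp (G s) / ℓ ∈ Complex.slitPlane ∧
        ‖Complex.log (Complex.exp (G s) / ℓ)‖ ≤ 1 := by
    have := (h1.eventually (Complex.isOpen_slitPlane.mem_nhds (by simp))).and
      (hlog.norm.eventually (eventually_le_nhds (show ‖(0 : ℂ)‖ < 1 by simp)))
    exact mem_nhdsGT_iff_exists_Ioo_subset.mp this
  set H : ℝ → ℂ := fun s => G s - Complex.log (Complex.exp (G s) / ℓ) with hH
  have hexp : ∀ s ∈ Set.Ioo 1 u, Complex.exp (H s) = ℓ := fun s hs => by
    rw [hH, Complex.exp_sub, Complex.exp_log (Complex.slitPlane_ne_zero (hev s hs).1)]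
    field_simp
  have hHc : ContinuousOn H (Set.Ioo 1 u) := by
    have hG' := hG.mono (Set.Ioo_subset_Ioi_self : Set.Ioo 1 u ⊆ Set.Ioi 1)
    exact hG'.sub ((hG'.cexp.div_const ℓ).clog fun s hs => (hev s hs).1)
  -- `H` is constant
  have hmid : (1 + u) / 2 ∈ Set.Ioo 1 u := ⟨by linarith, by linarith⟩
  have hconst : ∀ s ∈ Set.Ioo 1 u, H s = H ((1 + u) / 2) := by
    intro s hs
    obtain ⟨k, hk⟩ := Complex.exp_eq_exp_iff_exists_int.mp ((hexp s hs).trans (hexp _ hmid).symm)
    rcases eq_or_ne k 0 with rfl | hk0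
    · simpa using hk
    exfalso
    set a : ℝ := (H ((1 + u) / 2)).im
    have him : ∀ t ∈ Set.Ioo 1 u, ∀ j : ℤ, H t = H ((1 + u) / 2) + j * (2 * Real.pi * Complex.I) →
        (H t).im = a + j * (2 * Real.pi) := fun t _ j hj => by
      rw [hj]; simp [a]
    -- the value half a period away is attained
    set c : ℝ := if 0 < k then a + Real.pi else a - Real.pi with hc
    have hcmem : c ∈ Set.uIcc a ((H s).im) := by
      rw [him s hs k hk, hc]
      split_ifs with hpos
      · have : (1 : ℝ) ≤ k := by exact_mod_cast hpos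
        exact Set.mem_uIcc_of_le (by linarith [Real.pi_pos])
          (by nlinarith [Real.pi_pos])
      · have : (k : ℝ) ≤ -1 := by exact_mod_cast (show k ≤ -1 by omega)
        exact Set.mem_uIcc_of_ge (by nlinarith [Real.pi_pos]) (by linarith [Real.pi_pos])
    obtain ⟨t, ht', htc⟩ := intermediate_value_uIcc ((Complex.continuous_im.comp_continuousOn
      hHc).mono (Set.OrdConnected.uIcc_subset Set.ordConnected_Ioo hmid hs)) hcmem
    have ht := Set.OrdConnected.uIcc_subset Set.ordConnected_Ioo hmid hs ht'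
    obtain ⟨j, hj⟩ := Complex.exp_eq_exp_iff_exists_int.mp ((hexp t ht).trans (hexp _ hmid).symm)
    rw [Function.comp_apply, him t ht j hj, hc] at htc
    split_ifs at htc
    · have : (2 * j : ℤ) = 1 := by
        have := mul_right_cancel₀ Real.pi_ne_zero
          (show (2 * (j : ℝ)) * Real.pi = 1 * Real.pi by linarith)
        exact_mod_cast this
      omega
    · have : (2 * j : ℤ) = -1 := by
        have := mul_right_cancel₀ Real.pi_ne_zero
          (show (2 * (j : ℝ)) * Real.pi = (-1) * Real.pi by linarith)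
        exact_mod_cast this
      omega
  refine ⟨‖H ((1 + u) / 2)‖ + 1, ?_⟩
  filter_upwards [Ioo_mem_nhdsGT hu] with s hs
  rw [show G s = H s + Complex.log (Complex.exp (G s) / ℓ) by simp [hH], hconst s hs]
  exact (norm_add_le _ _).trans (add_le_add le_rfl (hev s hs).2)

/-- **The sum over the primes is bounded near `1`**, given a lower bound for its real part. -/
theorem exists_norm_primeSum_le (hψ : ψ (-1) = 1)
    (h : ∃ I : (Ideal (𝓞 K))⁰, normVal ψ I.1 ≠ 0 ∧ normVal ψ I.1 ≠ 1)
    (hlow : ∃ B : ℝ, ∀ᶠ s in 𝓝[>] 1, B ≤ (primeSum ψ K s).re) :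
    ∃ B : ℝ, ∀ᶠ s in 𝓝[>] 1, ‖primeSum ψ K s‖ ≤ B := by
  obtain ⟨ℓ, hℓ⟩ := exists_tendsto_normL (K := K) ψ hψ h
  have hexp : Tendsto (fun s => Complex.exp (logSum ψ K s)) (𝓝[>] 1) (𝓝 ℓ) := by
    refine hℓ.congr' ?_
    filter_upwards [self_mem_nhdsWithin] with s hs
    exact (exp_logSum ψ hs).symm
  obtain ⟨B, hB⟩ := hlow
  have hℓ0 : ℓ ≠ 0 := by
    intro h0
    have h1 : Real.exp (B - idealZeta K 2) ≤ ‖ℓ‖ := by
      refine ge_of_tendsto hexp.norm ?_
      filter_upwards [hB, self_mem_nhdsWithin] with s hs hs1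
      rw [Complex.norm_exp, Real.exp_le_exp]
      have := (Complex.abs_re_le_norm (logSum ψ K s - primeSum ψ K s)).trans
        (norm_logSum_sub_primeSum_le ψ hs1)
      rw [Complex.sub_re, abs_le] at this
      linarith
    rw [h0, norm_zero] at h1
    linarith [Real.exp_pos (B - idealZeta K 2)]
  obtain ⟨C, hC⟩ := exists_norm_le_of_exp_tendsto (continuousOn_logSum ψ) hℓ0 hexp
  refine ⟨C + idealZeta K 2, ?_⟩
  filter_upwards [hC, self_mem_nhdsWithin] with s hs hs1
  have h2 := norm_logSum_sub_primeSum_le (K := K) ψ (s := s) hs1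
  rw [show primeSum ψ K s = logSum ψ K s - (logSum ψ K s - primeSum ψ K s) by ring]
  exact (norm_sub_le _ _).trans (add_le_add hs h2)

end FA.Chebotarev

end
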