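import Fermat.Agent.Chebotarev.LogBound
import Fermat.Agent.Weight1.DensityPairs

/-!
# Primes with Frobenius element `(σ, a)`

In a Galois extension with group `G × (ℤ/m)ˣ/±1`, where the second projection is the cyclotomic
one, we bound below the primes with Frobenius element conjugate to `(σ, a)`, provided that the
order of `σ` divides the one of `a`.
-/

set_option autoImplicit false
set_option linter.style.haveILetI false

noncomputable section

open NumberField IsDedekindDomain Filter Topology FA.Density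
open FA.Ext (zN zN_nonneg primeIdeal exists_sum_le)
open FA.Weight1 (PmUnits InClass classInd classInd_nonneg classInd_le_one hits dirChar normVal
  normHom)
open scoped nonZeroDivisors Classical

namespace FA.Chebotarev

variable {m : ℕ} [Fact m.Prime]
variable {F : Type*} [Field F] [NumberField F] [IsGalois ℚ F] (𝔉 : FrobSystem F)
variable {G : Type*} [Group G] [Fintype G] (e : (F ≃ₐ[ℚ] F) ≃* G × PmUnits m)
variable (hq : ∀ q, 𝔉.Good q → ∀ u, InClass m u q ↔ (e (𝔉.frob q)).2 = u)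

include hq in
/-- **The primes with Frobenius element conjugate to `(σ, a)`.** -/
theorem exists_pair_lower [Fintype (PmUnits m)] {σ : G} {a : PmUnits m}
    (hσa : σ ^ orderOf a = 1) :
    ∃ B : ℝ, ∀ᶠ s in 𝓝[>] (1 : ℝ), ∃ S : Finset ℕ, (∀ q ∈ S, 𝔉.Good q) ∧
      Real.log (1 / (s - 1)) - B ≤ (Fintype.card (PmUnits m) : ℝ) * ∑ q ∈ S,
        (if (e (𝔉.frob q)).2 = a then (hits σ (e (𝔉.frob q)).1 : ℝ) else 0) * (q : ℝ) ^ (-s) := by
  set r := orderOf a with hr
  have hr0 : 0 < r := orderOf_pos a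
  set z₀ := e.symm (σ, a)
  set H := Subgroup.zpowers z₀ with hH
  have hcardH : Nat.card H = r := by
    rw [hH, Nat.card_zpowers, MulEquiv.orderOf_eq, Prod.orderOf_mk]
    exact Nat.lcm_eq_right (orderOf_dvd_of_pow_eq_one hσa)
  let K := IntermediateField.fixedField H
  have hcount : ∀ q : ℕ, ∃ T : Finset (HeightOneSpectrum (𝓞 K)), 𝔉.Good q →
      (∀ v, v ∈ T ↔ v ∈ degOne H q) ∧
      conjCount (H : Set (F ≃ₐ[ℚ] F)) (𝔉.frob q) = r * T.card := fun q => by
    by_cases hg : 𝔉.Good q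
    · obtain ⟨P, hP⟩ := 𝔉.spec q hg.1 hg.2
      obtain ⟨T, hT, hTc⟩ := hP.exists_count H
      exact ⟨T, fun _ => ⟨hT, by rw [← hcardH]; exact hTc⟩⟩
    · exact ⟨∅, fun h => absurd h hg⟩
  choose T hT using hcount
  let degV : Finset ℕ → Finset (HeightOneSpectrum (𝓞 K)) := fun S =>
    (S.filter 𝔉.Good).biUnion T
  have hnorm : ∀ (S : Finset ℕ), ∀ v ∈ degV S, 𝔉.Good (Ideal.absNorm v.asIdeal) := by
    intro S v hv
    obtain ⟨q, hqS, hvq⟩ := Finset.mem_biUnion.mp hv
    have hg := (Finset.mem_filter.mp hqS).2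
    rwa [show Ideal.absNorm v.asIdeal = q from ((hT q hg).1 v).mp hvq]
  have hsumT : ∀ (s : ℝ) (S : Finset ℕ) (φ : ℕ → ℝ),
      (r : ℝ) * ∑ v ∈ degV S, φ (Ideal.absNorm v.asIdeal) * zN s (primeIdeal v) =
        ∑ q ∈ S.filter 𝔉.Good, (conjCount (H : Set (F ≃ₐ[ℚ] F)) (𝔉.frob q) : ℝ) * φ q *
          (q : ℝ) ^ (-s) := by
    intro s S φ
    rw [Finset.sum_biUnion, Finset.mul_sum]
    · refine Finset.sum_congr rfl fun q hqS => ?_
      have hg := (Finset.mem_filter.mp hqS).2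
      rw [Finset.sum_congr rfl (g := fun _ => φ q * (q : ℝ) ^ (-s)) (fun v hv => by
        rw [FA.Weight1.zN_congr s (((hT q hg).1 v).mp hv),
          show Ideal.absNorm v.asIdeal = q from ((hT q hg).1 v).mp hv]),
        Finset.sum_const, nsmul_eq_mul, (hT q hg).2]
      push_cast
      ring
    · intro x hx y hy hxy
      rw [Function.onFun, Finset.disjoint_left]
      intro v hvx hvy
      exact hxy ((((hT x (Finset.mem_filter.mp hx).2).1 v).mp hvx).symm.trans
        (((hT y (Finset.mem_filter.mp hy).2).1 v).mp hvy))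
  set nU : ℝ := (Fintype.card (PmUnits m) : ℝ) with hnU
  have hnU0 : 0 < nU := Nat.cast_pos.mpr Fintype.card_pos
  set W := Finset.univ.filter fun χ : PmUnits m →* ℂˣ => χ a = 1 with hWdef
  have hW : (W.card : ℝ) * r = nU := by
    rw [hnU, ← FA.Weight1.card_trivial_mul_orderOf a]; push_cast; rfl
  -- the characters nontrivial on `a` are nontrivial on some norm
  have hex : ∀ χ : PmUnits m →* ℂˣ, χ a ≠ 1 → ∃ I : (Ideal (𝓞 K))⁰,
      normVal (dirChar χ) I.1 ≠ 0 ∧ normVal (dirChar χ) I.1 ≠ 1 := by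
    intro χ hχ
    obtain ⟨q, hqp, -, hqe, x, hx⟩ := 𝔉.exists_generating z₀ ∅
    have hg : 𝔉.Good q := ⟨hqp, hqe⟩
    have hxH : x * 𝔉.frob q * x⁻¹ ∈ H := by
      rw [hH, ← hx]; exact Subgroup.mem_zpowers _
    have hpos : 0 < conjCount (H : Set (F ≃ₐ[ℚ] F)) (𝔉.frob q) :=
      Finset.card_pos.mpr ⟨x, Finset.mem_filter.mpr ⟨Finset.mem_univ _, hxH⟩⟩
    rw [(hT q hg).2] at hpos
    obtain ⟨v, hv⟩ := Finset.card_pos.mp (Nat.pos_of_mul_pos_left hpos)
    obtain ⟨w, hw, hwu⟩ := (hq q hg _).mpr rfl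
    refine ⟨primeIdeal v, ?_⟩
    have hval : normVal (dirChar χ) (primeIdeal v).1 = ((χ (e (𝔉.frob q)).2 : ℂˣ) : ℂ) := by
      show dirChar χ ((Ideal.absNorm v.asIdeal : ℕ) : ZMod m) = _
      rw [show Ideal.absNorm v.asIdeal = q from ((hT q hg).1 v).mp hv, ← hw,
        FA.Weight1.dirChar_unit, hwu]
    rw [hval]
    refine ⟨Units.ne_zero _, fun h1 => hχ ?_⟩
    obtain ⟨k, hk⟩ : z₀ ∈ Subgroup.zpowers (x * 𝔉.frob q * x⁻¹) := hx ▸ Subgroup.mem_zpowers z₀
    have h2 : ((e (𝔉.frob q)).2) ^ k = a := by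
      have := congrArg (fun z => (e z).2) hk
      simp only [z₀, map_zpow, map_mul, map_inv, MulEquiv.apply_symm_apply, Prod.pow_snd,
        Prod.snd_mul, Prod.snd_inv] at this
      rwa [mul_comm ((e x).2), mul_inv_cancel_right] at this
    rw [← h2, map_zpow, show χ (e (𝔉.frob q)).2 = 1 from Units.ext (by simpa using h1), one_zpow]
  obtain ⟨M₁, hM₁⟩ := exists_sum_le K
  obtain ⟨M₂, hM₂⟩ := 𝔉.exists_bound_subgroup H
  obtain ⟨M₃, hM₃⟩ := 𝔉.exists_bound_subgroup (⊥ : Subgroup (F ≃ₐ[ℚ] F))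
  -- the sums over all primes with norm in a class
  set P : PmUnits m → ℝ → ℝ := fun u s => ∑' v : HeightOneSpectrum (𝓞 K),
    classInd u (Ideal.absNorm v.asIdeal) * zN s (primeIdeal v) with hP
  have hPsum : ∀ u : PmUnits m, ∀ s : ℝ, 1 < s → Summable fun v : HeightOneSpectrum (𝓞 K) =>
      classInd u (Ideal.absNorm v.asIdeal) * zN s (primeIdeal v) := fun u s hs =>
    Summable.of_nonneg_of_le (fun v => mul_nonneg (classInd_nonneg _ _) (zN_nonneg _ _))
      (fun v => mul_le_of_le_one_left (zN_nonneg _ _) (classInd_le_one _ _))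
      (summable_zN_primeIdeal hs)
  have horth : ∀ u : PmUnits m, ∀ s : ℝ, 1 < s → ((nU * P u s : ℝ) : ℂ) =
      ∑ χ : PmUnits m →* ℂˣ, ((χ u⁻¹ : ℂˣ) : ℂ) * primeSum (dirChar χ) K s := by
    intro u s hs
    simp only [primeSum, ← tsum_mul_left, hP]
    rw [← Summable.tsum_finsetSum fun χ _ =>
      (summable_normHom_primeIdeal _ hs).mul_left _, Complex.ofReal_tsum]
    refine tsum_congr fun v => ?_
    have h1 : ∀ χ : PmUnits m →* ℂˣ, ((χ u⁻¹ : ℂˣ) : ℂ) * normHom (dirChar χ) s (primeIdeal v) =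
        dirChar χ (Ideal.absNorm v.asIdeal : ZMod m) * ((χ u⁻¹ : ℂˣ) : ℂ) *
          (zN s (primeIdeal v) : ℂ) := fun χ => by
      simp only [FA.Weight1.normHom_apply, normVal, primeIdeal]
      ring
    rw [Finset.sum_congr rfl fun χ _ => h1 χ, ← Finset.sum_mul, FA.Weight1.sum_dirChar_mul]
    simp only [hnU]
    push_cast
    ring
  -- the class of `1`
  have hone : ∀ s ∈ Set.Ioc (1 : ℝ) 2, Real.log (1 / (s - 1)) - M₃ ≤ (r : ℝ) * P 1 s := by
    intro s hs
    obtain ⟨S₃, hS₃⟩ := (hM₃ s hs).2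
    rw [Subgroup.card_bot, Nat.cast_one, one_mul] at hS₃
    refine hS₃.trans (le_trans ?_ (mul_le_mul_of_nonneg_left
      ((hPsum 1 s hs.1).sum_le_tsum (degV S₃) fun v _ =>
        mul_nonneg (classInd_nonneg _ _) (zN_nonneg _ _)) (Nat.cast_nonneg r)))
    rw [hsumT s S₃ (classInd (1 : PmUnits m)), FrobSystem.psum]
    refine Finset.sum_le_sum fun q hqS => ?_
    have hgq := (Finset.mem_filter.mp hqS).2
    refine mul_le_mul_of_nonneg_right ?_ (Real.rpow_nonneg (Nat.cast_nonneg _) _)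
    rcases eq_or_ne (𝔉.frob q) 1 with h | h
    · have hc : conjCount (H : Set (F ≃ₐ[ℚ] F)) (𝔉.frob q) = Fintype.card (F ≃ₐ[ℚ] F) := by
        simp [conjCount, h, H.one_mem]
      rw [classInd, if_pos ((hq q hgq 1).mpr (by rw [h, map_one]; rfl)), mul_one, hc]
      exact_mod_cast conjCount_le _ _
    · rw [show conjCount ((⊥ : Subgroup (F ≃ₐ[ℚ] F)) : Set (F ≃ₐ[ℚ] F)) (𝔉.frob q) = 0 from
        Finset.card_eq_zero.mpr (Finset.filter_eq_empty_iff.mpr fun {y} _ hy => h (by
          simpa [mul_inv_eq_one] using hy)), Nat.cast_zero]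
      exact mul_nonneg (Nat.cast_nonneg _) (classInd_nonneg _ _)
  -- bounds on the sums
  have hup : ∀ χ : PmUnits m →* ℂˣ, ∃ B : ℝ, χ ∉ W → ∀ s ∈ Set.Ioc (1 : ℝ) 2,
      (primeSum (dirChar χ) K s).re ≤ B := fun χ => by
    by_cases h : χ ∈ W
    · exact ⟨0, fun h' => absurd h h'⟩
    · obtain ⟨B, hB⟩ := exists_re_primeSum_le (K := K) (dirChar χ) (FA.Weight1.dirChar_neg_one χ)
        (hex χ fun he => h (Finset.mem_filter.mpr ⟨Finset.mem_univ _, he⟩))
      exact ⟨B, fun _ => hB⟩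
  choose B hB using hup
  have hbd : ∀ χ : PmUnits m →* ℂˣ, ∃ C : ℝ, χ ∉ W →
      ∀ᶠ s in 𝓝[>] (1 : ℝ), ‖primeSum (dirChar χ) K s‖ ≤ C := by
    intro χ₀
    by_cases hχ₀ : χ₀ ∈ W
    · exact ⟨0, fun h => absurd hχ₀ h⟩
    obtain ⟨C, hC⟩ := exists_norm_primeSum_le (K := K) (dirChar χ₀)
      (FA.Weight1.dirChar_neg_one χ₀)
      (hex χ₀ fun he => hχ₀ (Finset.mem_filter.mpr ⟨Finset.mem_univ _, he⟩))
      ⟨-(W.card * |M₃| + (W.card * |M₁| + ∑ χ : PmUnits m →* ℂˣ, max (B χ) 0)), by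
        filter_upwards [Ioc_one_two_mem] with s hs
        have h1 := congrArg Complex.re (horth 1 s hs.1)
        simp only [inv_one, map_one, Units.val_one, one_mul, Complex.re_sum,
          Complex.ofReal_re] at h1
        have h2 : (W.card : ℝ) * (Real.log (1 / (s - 1)) - |M₃|) ≤ nU * P 1 s := by
          rw [← hW, mul_assoc]
          exact mul_le_mul_of_nonneg_left
            (le_trans (by linarith [le_abs_self M₃]) (hone s hs)) (Nat.cast_nonneg _)
        have h3 : ∀ χ : PmUnits m →* ℂˣ, (primeSum (dirChar χ) K s).re ≤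
            Real.log (1 / (s - 1)) + |M₁| := fun χ => by
          refine (Complex.re_le_norm _).trans ((tsum_of_norm_bounded
            (summable_zN_primeIdeal hs.1).hasSum fun v =>
              FA.Weight1.norm_normHom_le _ s _).trans ?_)
          exact (Real.tsum_le_of_sum_le (fun v => zN_nonneg _ _) (hM₁ s hs)).trans
            (by linarith [le_abs_self M₁])
        rw [h1, ← Finset.sum_filter_add_sum_filter_not Finset.univ (fun χ => χ ∈ W),
          show Finset.univ.filter (fun χ => χ ∈ W) = W by ext; simp,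
          ← Finset.add_sum_erase _ _ (show χ₀ ∈ Finset.univ.filter (fun χ => χ ∉ W) by
            simp [hχ₀])] at h2
        have e1 : ∑ χ ∈ W, (primeSum (dirChar χ) K s).re ≤
            W.card * (Real.log (1 / (s - 1)) + |M₁|) := by
          rw [← nsmul_eq_mul]; exact Finset.sum_le_card_nsmul _ _ _ fun χ _ => h3 χ
        have e2 : ∑ χ ∈ (Finset.univ.filter (fun χ => χ ∉ W)).erase χ₀,
            (primeSum (dirChar χ) K s).re ≤ ∑ χ, max (B χ) 0 := by
          refine (Finset.sum_le_sum fun χ hχ => ?_).trans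
            (Finset.sum_le_sum_of_subset_of_nonneg (Finset.subset_univ _) fun χ _ _ =>
              le_max_right (B χ) 0)
          exact (hB χ (Finset.mem_filter.mp (Finset.mem_of_mem_erase hχ)).2 s hs).trans
            (le_max_left _ _)
        linarith⟩
    exact ⟨C, fun _ => hC⟩
  choose C hC using hbd
  set C₁ : ℝ := ∑ χ : PmUnits m →* ℂˣ, 2 * |C χ|
  have hdiff : ∀ᶠ s in 𝓝[>] (1 : ℝ), |nU * (P a s - P 1 s)| ≤ C₁ := by
    have hall : ∀ᶠ s in 𝓝[>] (1 : ℝ), ∀ χ : PmUnits m →* ℂˣ, χ ∉ W →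
        ‖primeSum (dirChar χ) K s‖ ≤ C χ := eventually_all.mpr fun χ => by
      by_cases h : χ ∈ W
      · exact Eventually.of_forall fun _ h' => absurd h h'
      · exact (hC χ h).mono fun _ hs _ => hs
    filter_upwards [hall, self_mem_nhdsWithin] with s hs hs1
    rw [← Real.norm_eq_abs, ← Complex.norm_real, mul_sub, Complex.ofReal_sub, horth a s hs1,
      horth 1 s hs1, ← Finset.sum_sub_distrib]
    refine (norm_sum_le _ _).trans (Finset.sum_le_sum fun χ _ => ?_)
    rw [inv_one, map_one, Units.val_one, ← sub_mul, norm_mul]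
    by_cases h : χ ∈ W
    · rw [map_inv, (Finset.mem_filter.mp h).2, inv_one, Units.val_one, sub_self, norm_zero,
        zero_mul]
      positivity
    · refine mul_le_mul ((norm_sub_le _ _).trans (le_of_eq ?_))
        ((hs χ h).trans (le_abs_self _)) (norm_nonneg _) two_pos.le
      have h1 : ‖((χ a⁻¹ : ℂˣ) : ℂ)‖ = 1 := FA.Weight1.norm_char_apply (U := PmUnits m) χ _
      rw [h1, norm_one]
      norm_num
  refine ⟨|M₃| + (r : ℝ) * C₁ / nU + r + r * (|M₁| + |M₂|), ?_⟩
  filter_upwards [hdiff, Ioc_one_two_mem] with s hd hs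
  set L := Real.log (1 / (s - 1))
  -- a finite set of primes
  obtain ⟨S₂, hS₂⟩ := (hM₂ s hs).2
  obtain ⟨V, hVa, hV₂⟩ := (((hPsum a s hs.1).hasSum.eventually
    (eventually_ge_nhds (show P a s - 1 < P a s by linarith))).and
      (eventually_ge_atTop (degV S₂))).exists
  set x : HeightOneSpectrum (𝓞 K) → ℝ := fun v => zN s (primeIdeal v)
  have hx0 : ∀ v, 0 ≤ x v := fun v => zN_nonneg _ _
  set N : HeightOneSpectrum (𝓞 K) → ℕ := fun v => Ideal.absNorm v.asIdeal
  have hbad : ∑ v ∈ V.filter (fun v => ¬ 𝔉.Good (N v)), x v ≤ |M₁| + |M₂| := by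
    have h1 : (r : ℝ) * ∑ v ∈ degV S₂, (1 : ℝ) * x v = 𝔉.psum S₂ (H : Set (F ≃ₐ[ℚ] F)) s := by
      rw [hsumT s S₂ fun _ => 1, FrobSystem.psum]; simp only [mul_one]
    have h2 : ∑ v ∈ degV S₂, (1 : ℝ) * x v ≤ ∑ v ∈ V.filter (fun v => 𝔉.Good (N v)), x v := by
      simp only [one_mul]
      exact Finset.sum_le_sum_of_subset_of_nonneg
        (fun v hv => Finset.mem_filter.mpr ⟨hV₂ hv, hnorm S₂ v hv⟩) fun v _ _ => hx0 v
    have hr1 : (1 : ℝ) ≤ r := by exact_mod_cast hr0
    rw [hcardH, ← h1] at hS₂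
    have h4 : L - |M₂| ≤ ∑ v ∈ V.filter (fun v => 𝔉.Good (N v)), x v := by
      nlinarith [le_abs_self M₂, abs_nonneg M₂,
        mul_le_mul_of_nonneg_left h2 (le_trans zero_le_one hr1)]
    have hsplit := Finset.sum_filter_add_sum_filter_not V (fun v => 𝔉.Good (N v)) x
    linarith [hM₁ s hs V, le_abs_self M₁]
  refine ⟨(V.image N).filter 𝔉.Good, fun q h => (Finset.mem_filter.mp h).2, ?_⟩
  have hPa : P a s - 1 - (|M₁| + |M₂|) ≤
      ∑ v ∈ degV (V.image N), classInd a (N v) * x v := by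
    have h3 : ∑ v ∈ V, classInd a (N v) * x v ≤
        ∑ v ∈ degV (V.image N), classInd a (N v) * x v + (|M₁| + |M₂|) := by
      rw [← Finset.sum_filter_add_sum_filter_not V (fun v => 𝔉.Good (N v))]
      refine add_le_add (Finset.sum_le_sum_of_subset_of_nonneg (fun v hv => ?_) fun v _ _ =>
        mul_nonneg (classInd_nonneg _ _) (hx0 v)) ?_
      · exact Finset.mem_biUnion.mpr ⟨N v,
          Finset.mem_filter.mpr ⟨Finset.mem_image_of_mem _ (Finset.mem_filter.mp hv).1,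
            (Finset.mem_filter.mp hv).2⟩, ((hT (N v) (Finset.mem_filter.mp hv).2).1 v).mpr rfl⟩
      · exact le_trans (Finset.sum_le_sum fun v _ =>
          mul_le_of_le_one_left (hx0 v) (classInd_le_one _ _)) hbad
    linarith
  have hconv : (r : ℝ) * ∑ v ∈ degV (V.image N), classInd a (N v) * x v =
      nU * ∑ q ∈ (V.image N).filter 𝔉.Good,
        (if (e (𝔉.frob q)).2 = a then (hits σ (e (𝔉.frob q)).1 : ℝ) else 0) *
          (q : ℝ) ^ (-s) := by
    rw [hsumT s _ (classInd a), Finset.mul_sum]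
    refine Finset.sum_congr rfl fun q hqS => ?_
    have hgq := (Finset.mem_filter.mp hqS).2
    rw [← mul_assoc nU]
    congr 1
    by_cases hb : (e (𝔉.frob q)).2 = a
    · rw [if_pos hb, classInd, if_pos ((hq q hgq a).mpr hb), mul_one, hH,
        FA.Weight1.conjCount_pair e hσa hb, Nat.cast_mul]
    · rw [if_neg hb, classInd, if_neg fun h => hb ((hq q hgq a).mp h), mul_zero, mul_zero]
  rw [← hconv]
  have h5 : -(C₁ / nU) ≤ P a s - P 1 s := by
    rw [neg_le, neg_sub, le_div_iff₀' hnU0]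
    linarith [(abs_le.mp hd).1]
  have h6 := hone s hs
  have hr' : (0 : ℝ) ≤ r := Nat.cast_nonneg r
  have h7 := mul_le_mul_of_nonneg_left hPa hr'
  have h8 := mul_le_mul_of_nonneg_left h5 hr'
  rw [mul_div_assoc]
  linarith [le_abs_self M₃]

end FA.Chebotarev

end
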